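import Fermat.Agent.LT.Rigidity.TameTrace.Invariance
import Fermat.Agent.LT.Rigidity.Trace

/-!
# The tame places form a tame system on the fibre

Two twisted components for each place of `Q`, for the two primitive cube roots of unity.
-/

set_option autoImplicit false

noncomputable section

open IsDedekindDomain NumberField WithZero
open scoped NumberField

namespace Fermat.Agent.LT.Rigidity.Tame

open Places PlaceMatching Whittaker

variable {F : Type*} [Field F] [NumberField F] {σ : F ≃+* F} {U : Level F} {w : FinPlace F}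

theorem isSupportedAt_heckeOf (hU : IsFirstLevel U w) {A : Module.End ℂ (Fn F)}
    (hA : A ∈ LocAlg w) (hfix : ∀ f, InvU U f → Fixed (rtLoc w) (val w) (A f)) :
    IsSupportedAt w (heckeOf hU hA hfix) := by
  obtain ⟨c, hc⟩ := exists_combination hA
  refine ⟨c.support.card, fun i => c (c.support.equivFin.symm i).1,
    fun i => localGL w (c.support.equivFin.symm i).1,
    fun i v hv => glPlace_localGL_ne hv _, fun φ P x => ?_⟩
  rw [heckeOf_op, hc, ← Finset.sum_coe_sort]
  exact (c.support.equivFin.symm.sum_comp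
    (fun g => c g.1 * φ (P, QuotientGroup.mk (x * localGL w g.1)))).symm

theorem IsTamePlace.isSupportedAt_tameProj (h : IsTamePlace σ U w) {χ : ℂ} (hχ : χ ^ 3 = 1) :
    IsSupportedAt w (h.tameProj hχ) :=
  isSupportedAt_heckeOf h.level (proj_mem w h.zeta χ) fun _ hf => (h.isEig_projPlace hχ hf).fixed

theorem IsTamePlace.isSupportedAt_tameUp (h : IsTamePlace σ U w) {χ : ℂ} (hχ : χ ^ 3 = 1) :
    IsSupportedAt w (h.tameUp hχ) :=
  isSupportedAt_heckeOf h.level (up_mem w h.zeta χ) fun _ hf => (h.isEig_upPlace hχ hf).fixed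

variable {I : Ideal (𝓞 F)} {hI : ∃ N : ℕ, 0 < N ∧ (N : 𝓞 F) ∈ I}
  {Q R : Finset (FinPlace F)} {g : Fˣ} {lam : FinPlace F → ℂ} {s : ℂ}

/-- The arithmetic at the tame places. -/
structure IsTameArith (σ : F ≃+* F) (I : Ideal (𝓞 F)) (Q : Finset (FinPlace F)) : Prop where
  pow : σ ^ 3 = 1
  exact : ∀ w ∈ Q, ∃ o ∈ I, w.valuation F (o : F) = exp (-1 : ℤ)
  residue : ∀ w ∈ Q, ∀ (hw : comapPlace (σ : F →+* F) w = w) (x : w.adicCompletion F),
    Valued.v x ≤ 1 → Valued.v (placeIso σ hw x - x) < 1
  shell : ∀ w ∈ Q, HasShellThree w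

theorem IsTameArith.isTamePlace (A : IsTameArith σ I Q) (H : IsFibreSetting σ I Q R g lam)
    (hw : w ∈ Q) : IsTamePlace σ (Level.ofIdeal F I hI) w where
  level := isFirstLevel_ofIdeal ((H.le_iff w).mpr (Or.inl hw)) (A.exact w hw)
  fixed := by rw [← placeEquiv_apply]; exact H.fixed w hw
  residue := A.residue w hw _
  pow := A.pow

/-- The place of a component. -/
def tamePlace (Q : Finset (FinPlace F)) (k : Fin Q.card × Bool) : FinPlace F :=
  (Q.equivFin.symm k.1).1

omit [NumberField F] in
/-- The place of a component lies in `Q`. -/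
theorem tamePlace_mem (k : Fin Q.card × Bool) : tamePlace Q k ∈ Q := (Q.equivFin.symm k.1).2

/-- The character of a component. -/
def tameChar (ω : ℂ) (b : Bool) : ℂ := if b then ω else ω ^ 2

/-- The characters of the components have order dividing three. -/
theorem tameChar_pow {ω : ℂ} (hω : ω ^ 3 = 1) (b : Bool) : tameChar ω b ^ 3 = 1 := by
  cases b
  · show (ω ^ 2) ^ 3 = 1
    rw [← pow_mul, mul_comm, pow_mul, hω, one_pow]
  · exact hω

/-- The characters of the components are nontrivial. -/
theorem tameChar_ne_one {ω : ℂ} (hω : ω ^ 3 = 1) (hω1 : ω ≠ 1) (b : Bool) :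
    tameChar ω b ≠ 1 := by
  cases b
  · intro e
    have e' : ω ^ 2 = 1 := e
    exact hω1 (by linear_combination hω - ω * e')
  · exact hω1

variable (A : IsTameArith σ I Q) (H : IsFibreSetting σ I Q R g lam) {ω : ℂ} (hω : ω ^ 3 = 1)

/-- The idempotents of the tame system. -/
def systemProj (hI : ∃ N : ℕ, 0 < N ∧ (N : 𝓞 F) ∈ I) (k : Fin Q.card × Bool) :
    HeckeFn (Level.ofIdeal F I hI) :=
  (A.isTamePlace H (hI := hI) (tamePlace_mem k)).tameProj (tameChar_pow hω k.2)

/-- The intertwiners of the tame system. -/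
def systemUp (hI : ∃ N : ℕ, 0 < N ∧ (N : 𝓞 F) ∈ I) (k : Fin Q.card × Bool) :
    HeckeFn (Level.ofIdeal F I hI) :=
  (A.isTamePlace H (hI := hI) (tamePlace_mem k)).tameUp (tameChar_pow hω k.2)

theorem commute_of_fst (T T' : Fin Q.card × Bool → HeckeFn U)
    (hT : ∀ k, (T k).SupportedIn {tamePlace Q k}) (hT' : ∀ k, (T' k).SupportedIn {tamePlace Q k})
    (hsame : ∀ i b b', Commute (T (i, b)) (T' (i, b'))) (k l : Fin Q.card × Bool) :
    Commute (T k) (T' l) := by
  by_cases e : k.1 = l.1
  · obtain ⟨i, b⟩ := k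
    obtain ⟨j, b'⟩ := l
    obtain rfl : i = j := e
    exact hsame i b b'
  · refine (hT k).commute (hT' l) (Set.disjoint_singleton.mpr fun h => e ?_)
    exact Q.equivFin.symm.injective (Subtype.ext h)

theorem commute_systemProj (k l : Fin Q.card × Bool) :
    Commute (systemProj A H hω hI k) (systemProj A H hω hI l) := by
  refine commute_of_fst _ _
    (fun k => (A.isTamePlace H (tamePlace_mem k)).supportedIn_tameProj _)
    (fun k => (A.isTamePlace H (tamePlace_mem k)).supportedIn_tameProj _) (fun i b b' => ?_) k l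
  suffices key : ∀ (w w' : FinPlace F) (hw : w ∈ Q) (hw' : w' ∈ Q), w = w' →
      Commute ((A.isTamePlace H (hI := hI) hw).tameProj (tameChar_pow hω b))
        ((A.isTamePlace H (hI := hI) hw').tameProj (tameChar_pow hω b')) from
    key (tamePlace Q (i, b)) (tamePlace Q (i, b')) (tamePlace_mem _) (tamePlace_mem _) rfl
  intro w w' hw hw' e
  subst e
  exact IsTamePlace.commute_proj_proj _ _ (tameChar_pow hω b')

theorem commute_systemUp (k l : Fin Q.card × Bool) :
    Commute (systemUp A H hω hI k) (systemProj A H hω hI l) := by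
  refine commute_of_fst _ _
    (fun k => (A.isTamePlace H (tamePlace_mem k)).supportedIn_tameUp _)
    (fun k => (A.isTamePlace H (tamePlace_mem k)).supportedIn_tameProj _) (fun i b b' => ?_) k l
  suffices key : ∀ (w w' : FinPlace F) (hw : w ∈ Q) (hw' : w' ∈ Q), w = w' →
      Commute ((A.isTamePlace H (hI := hI) hw).tameUp (tameChar_pow hω b))
        ((A.isTamePlace H (hI := hI) hw').tameProj (tameChar_pow hω b')) from
    key (tamePlace Q (i, b)) (tamePlace Q (i, b')) (tamePlace_mem _) (tamePlace_mem _) rfl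
  intro w w' hw hw' e
  subst e
  exact IsTamePlace.commute_up_proj _ _ (tameChar_pow hω b')

variable [NumberField.IsTotallyComplex F]

/-- **The tame system.** -/
theorem isTameSystem (hω1 : ω ≠ 1)
    (hU : ∀ x ∈ (Level.ofIdeal F I hI).toSubgroup,
      glFinMap (σ : F →+* F) x ∈ (Level.ofIdeal F I hI).toSubgroup) :
    IsTameSystem H hI s hU (tamePlace Q) (systemProj A H hω hI) (systemUp A H hω hI) where
  place_mem := tamePlace_mem
  proj_supported k := (A.isTamePlace H (tamePlace_mem k)).isSupportedAt_tameProj _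
  up_supported k := (A.isTamePlace H (tamePlace_mem k)).isSupportedAt_tameUp _
  idem k φ _ := (A.isTamePlace H (tamePlace_mem k)).proj_idem _ φ
  comm_galY k φ _ := (A.isTamePlace H (tamePlace_mem k)).proj_galY _ hU φ
  comm_proj k l φ _ := HeckeFn.op_comm (commute_systemProj A H hω k l) φ
  comm_up k l φ _ := HeckeFn.op_comm (commute_systemUp A H hω k l) φ
  injective k φ _ h := (A.isTamePlace H (tamePlace_mem k)).proj_eq_zero_of_up_eq_zero _
    (tameChar_ne_one hω hω1 k.2) h
  twist k := ⟨tameChar ω k.2 ^ 2, fun e => tameChar_ne_one hω hω1 k.2 (by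
      linear_combination tameChar_pow hω k.2 - tameChar ω k.2 * e),
    fun φ _ => (A.isTamePlace H (tamePlace_mem k)).up_galY _ hU φ⟩
  invariant φ hφ hkill v hv a := by
    have key : ∀ (w : FinPlace F) (hw : w ∈ Q),
        (∀ b, ((A.isTamePlace H (hI := hI) hw).tameProj (tameChar_pow hω b)).op φ = 0) := by
      intro w hw b
      obtain ⟨k, rfl⟩ : ∃ k, tamePlace Q (k, b) = w :=
        ⟨Q.equivFin ⟨w, hw⟩, congrArg Subtype.val (Q.equivFin.symm_apply_apply ⟨w, hw⟩)⟩
      exact hkill (k, b)
    exact (A.isTamePlace H hv).whit_mix hφ.cusp.cuspEigen hω hω1 (key v hv true) (key v hv false)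
      (A.shell v hv) a

end Fermat.Agent.LT.Rigidity.Tame

end
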