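import Fermat.Agent.LT.Rigidity.TameTrace.Place

/-!
# The operators of a tame place

`tameProj h χ` (average over integral unipotents followed by the `χ` part for `dia ζ`) and
`tameUp h χ` (Iwahori operator of a uniformiser) as Hecke functions supported at the place: an
idempotent, an operator injective on its range, twisted by `χ ^ 2` under composition with `σ`, and
killing spherical vectors.
-/

set_option autoImplicit false

noncomputable section

open IsDedekindDomain NumberField
open scoped NumberField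

namespace Fermat.Agent.LT.Rigidity.Tame

open Places PlaceMatching

variable {F : Type*} [Field F] [NumberField F] {σ : F ≃+* F} {U : Level F} {w : FinPlace F}

instance fintypeResidue (w : FinPlace F) : Fintype (Residue w) := Fintype.ofFinite _

theorem avg_mem (w : FinPlace F) : avg (rtLoc w) (resLift w) ∈ LocAlg w :=
  (LocAlg w).smul_mem (sum_mem fun _ _ => rtLoc_mem w _) _

/-- The twisted projection lies in the local algebra. -/
theorem proj_mem (w : FinPlace F) (ζ : (w.adicCompletion F)ˣ) (χ : ℂ) :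
    proj (rtLoc w) ζ (resLift w) χ ∈ LocAlg w :=
  mul_mem ((LocAlg w).smul_mem (add_mem (add_mem (one_mem _)
    ((LocAlg w).smul_mem (rtLoc_mem w _) _)) ((LocAlg w).smul_mem (rtLoc_mem w _) _)) _) (avg_mem w)

/-- The Iwahori operator lies in the local algebra. -/
theorem up_mem (w : FinPlace F) (ζ : (w.adicCompletion F)ˣ) (χ : ℂ) :
    up (rtLoc w) (piLocal w) ζ (resLift w) χ ∈ LocAlg w :=
  mul_mem (mul_mem (sum_mem fun _ _ => rtLoc_mem w _) (rtLoc_mem w _)) (proj_mem w ζ χ)

namespace IsTamePlace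

variable (h : IsTamePlace σ U w) {χ : ℂ} (hχ : χ ^ 3 = 1)
include h hχ

/-- The projection at `w` lands in the eigencomponent. -/
theorem isEig_projPlace {f : Fn F} (hf : InvU U f) :
    IsEig (rtLoc w) (val w) h.zeta χ (proj (rtLoc w) h.zeta (resLift w) χ f) :=
  isEig_proj (resList_resLift w) h.valued_zeta h.zeta_three hχ (h.level.fixed hf)

/-- The Iwahori operator at `w` lands in the eigencomponent. -/
theorem isEig_upPlace {f : Fn F} (hf : InvU U f) :
    IsEig (rtLoc w) (val w) h.zeta χ (up (rtLoc w) (piLocal w) h.zeta (resLift w) χ f) :=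
  isEig_up (resList_resLift w) h.valued_zeta h.zeta_three (isUnif_piLocal w) hχ (h.level.fixed hf)

/-- The twisted projection at the place. -/
def tameProj : HeckeFn U :=
  heckeOf h.level (proj_mem w h.zeta χ) fun _ hf => (h.isEig_projPlace hχ hf).fixed

/-- The Iwahori operator at the place. -/
def tameUp : HeckeFn U :=
  heckeOf h.level (up_mem w h.zeta χ) fun _ hf => (h.isEig_upPlace hχ hf).fixed

/-- The tame projection is supported at `w`. -/
theorem supportedIn_tameProj : (h.tameProj hχ).SupportedIn {w} := heckeOf_supportedIn _ _ _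

/-- The tame Iwahori operator is supported at `w`. -/
theorem supportedIn_tameUp : (h.tameUp hχ).SupportedIn {w} := heckeOf_supportedIn _ _ _

/-- The tame projection on lifted functions. -/
theorem lift_tameProj (φ : Y U → ℂ) (P : InfinitePlace F → H3) :
    lift (fun b => (h.tameProj hχ).op φ (P, b)) =
      proj (rtLoc w) h.zeta (resLift w) χ (lift fun b => φ (P, b)) :=
  lift_heckeOf_op _ _ _ φ P

theorem lift_tameUp (φ : Y U → ℂ) (P : InfinitePlace F → H3) :
    lift (fun b => (h.tameUp hχ).op φ (P, b)) =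
      up (rtLoc w) (piLocal w) h.zeta (resLift w) χ (lift fun b => φ (P, b)) :=
  lift_heckeOf_op _ _ _ φ P

/-- The tame projection is idempotent. -/
theorem proj_idem (φ : Y U → ℂ) :
    (h.tameProj hχ).op ((h.tameProj hχ).op φ) = (h.tameProj hχ).op φ := eq_of_lift fun P => by
  rw [h.lift_tameProj hχ, h.lift_tameProj hχ,
    proj_self (resList_resLift w) hχ
      (h.isEig_projPlace hχ (invU_lift _))]

theorem proj_proj {χ' : ℂ} (hχ' : χ' ^ 3 = 1) (hne : χ ≠ χ') (φ : Y U → ℂ) :
    (h.tameProj hχ).op ((h.tameProj hχ').op φ) = 0 := eq_of_lift fun P => by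
  rw [h.lift_tameProj hχ, h.lift_tameProj hχ',
    proj_of_ne (resList_resLift w) hχ hχ' hne
      (h.isEig_projPlace hχ' (invU_lift _))]
  rfl

theorem up_proj_op (φ : Y U → ℂ) :
    (h.tameUp hχ).op ((h.tameProj hχ).op φ) = (h.tameUp hχ).op φ := eq_of_lift fun P => by
  rw [h.lift_tameUp hχ, h.lift_tameProj hχ, h.lift_tameUp hχ,
    up_proj (resList_resLift w) h.valued_zeta h.zeta_three hχ
      (h.level.fixed (invU_lift _))]

theorem proj_up_op (φ : Y U → ℂ) :
    (h.tameProj hχ).op ((h.tameUp hχ).op φ) = (h.tameUp hχ).op φ := eq_of_lift fun P => by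
  rw [h.lift_tameProj hχ, h.lift_tameUp hχ,
    proj_self (resList_resLift w) hχ
      (h.isEig_upPlace hχ (invU_lift _))]

theorem proj_up_op_of_ne {χ' : ℂ} (hχ' : χ' ^ 3 = 1) (hne : χ ≠ χ') (φ : Y U → ℂ) :
    (h.tameProj hχ).op ((h.tameUp hχ').op φ) = 0 := eq_of_lift fun P => by
  rw [h.lift_tameProj hχ, h.lift_tameUp hχ',
    proj_of_ne (resList_resLift w) hχ hχ' hne
      (h.isEig_upPlace hχ' (invU_lift _))]
  rfl

omit hχ h in
theorem op_zero_fun (f : HeckeFn U) : f.op (0 : Y U → ℂ) = 0 := by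
  have h0 := f.op_smul_fun 0 (0 : Y U → ℂ)
  rwa [zero_smul, zero_smul] at h0

theorem up_proj_op_of_ne {χ' : ℂ} (hχ' : χ' ^ 3 = 1) (hne : χ ≠ χ') (φ : Y U → ℂ) :
    (h.tameUp hχ).op ((h.tameProj hχ').op φ) = 0 := by
  rw [← h.up_proj_op hχ, h.proj_proj hχ hχ' hne, op_zero_fun]

/-- The twisted projections commute. -/
theorem commute_proj_proj {χ' : ℂ} (hχ' : χ' ^ 3 = 1) :
    Commute (h.tameProj hχ) (h.tameProj hχ') := by
  by_cases e : χ = χ'
  · subst e
    exact Commute.refl _
  · refine HeckeFn.commute_of_op fun φ => ?_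
    rw [h.proj_proj hχ hχ' e, h.proj_proj hχ' hχ fun e' => e e'.symm]

/-- The Iwahori operators commute with the twisted projections. -/
theorem commute_up_proj {χ' : ℂ} (hχ' : χ' ^ 3 = 1) :
    Commute (h.tameUp hχ) (h.tameProj hχ') := by
  refine HeckeFn.commute_of_op fun φ => ?_
  by_cases e : χ = χ'
  · subst e
    rw [h.up_proj_op hχ, h.proj_up_op hχ]
  · rw [h.up_proj_op_of_ne hχ hχ' e, h.proj_up_op_of_ne hχ' hχ fun e' => e e'.symm]

/-- **Injectivity.** -/
theorem proj_eq_zero_of_up_eq_zero (hχ1 : χ ≠ 1) {φ : Y U → ℂ}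
    (h0 : (h.tameUp hχ).op ((h.tameProj hχ).op φ) = 0) : (h.tameProj hχ).op φ = 0 := by
  rw [h.up_proj_op hχ] at h0
  refine eq_of_lift fun P => ?_
  rw [h.lift_tameProj hχ]
  refine proj_eq_zero_of_up (resList_resLift w) h.valued_zeta h.zeta_three (isUnif_piLocal w) hχ
    (fun e => hχ1 (by linear_combination hχ - χ * e)) (h.level.fixed (invU_lift _)) ?_
  rw [← h.lift_tameUp hχ, h0]
  rfl

variable (hU : ∀ g ∈ U.toSubgroup, glFinMap (σ : F →+* F) g ∈ U.toSubgroup)

/-- The twisted projection commutes with the automorphism. -/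
theorem proj_galY (φ : Y U → ℂ) :
    (h.tameProj hχ).op (fun y => φ (galY σ U hU y)) =
      fun y => (h.tameProj hχ).op φ (galY σ U hU y) := eq_of_lift fun P => by
  rw [h.lift_tameProj hχ, lift_galY hU, lift_galY hU, h.lift_tameProj hχ]
  exact proj_semilinear (τ := placeIso σ h.fixed) (resList_resLift w) h.valued_zeta
    h.residue (fun g z => rtLoc_galFn h.fixed g z)
    (h.level.fixed (invU_lift _))

/-- **Twist.** -/
theorem up_galY (φ : Y U → ℂ) :
    (fun y => (h.tameUp hχ).op ((h.tameProj hχ).op φ) (galY σ U hU y)) =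
      χ ^ 2 • (h.tameUp hχ).op (fun y => (h.tameProj hχ).op φ (galY σ U hU y)) := by
  rw [← h.proj_galY hχ hU, h.up_proj_op hχ, h.up_proj_op hχ]
  refine eq_of_lift fun P => ?_
  rw [lift_galY hU, h.lift_tameUp hχ]
  show _ = χ ^ 2 • lift fun b => (h.tameUp hχ).op (fun y => φ (galY σ U hU y)) (P, b)
  rw [h.lift_tameUp hχ, lift_galY hU,
    up_semilinear (s := galFn σ) (τ := placeIso σ h.fixed) (resList_resLift w) h.valued_zeta
      h.zeta_three (isUnif_piLocal w) hχ h.residue
      h.placeIso_piLocal (fun g z => rtLoc_galFn h.fixed g z) (h.level.fixed (invU_lift _)),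
    smul_smul, ← pow_succ, hχ, one_smul]

/-- **Spherical vectors are outside.** -/
theorem proj_eq_zero_of_spherical (hχ1 : χ ≠ 1) {φ : Y U → ℂ}
    (hsph : ∀ k ∈ intGroup w, ∀ P x, φ (P, QuotientGroup.mk (x * localGL w k)) =
      φ (P, QuotientGroup.mk x)) :
    (h.tameProj hχ).op φ = 0 := eq_of_lift fun P => by
  rw [h.lift_tameProj hχ]
  have hR : ∀ k, IsInt (val w) k →
      rtLoc w k (lift fun b => φ (P, b)) = lift fun b => φ (P, b) := fun k hk =>
    funext fun x => hsph k (mem_intGroup_of_inv hk.1 hk.2) P x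
  have he : IsEig (rtLoc w) (val w) h.zeta 1 (lift fun b => φ (P, b)) :=
    ⟨h.level.fixed (invU_lift _), fun x hx => hR _ (isInt_unip hx),
      by rw [one_smul]; exact hR _ (isInt_dia h.valued_zeta)⟩
  rw [proj_of_ne (resList_resLift w) hχ (one_pow 3) hχ1 he]
  rfl

end IsTamePlace

end Fermat.Agent.LT.Rigidity.Tame

end
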