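import Fermat.Agent.LT.Whittaker.Adele
import Mathlib.RingTheory.Valuation.Basic

/-!
# Congruences modulo a uniformiser in `GL₂` of a valued field

`Near v g` says that `g` is a scalar times a matrix congruent to one; residue lists allow sums
over residue classes.
-/

set_option autoImplicit false

open WithZero Matrix

namespace Fermat.Agent.LT.Rigidity.Tame

variable {E : Type*} [Field E] {v : Valuation E ℤᵐ⁰}

/-- The lower unipotent `(1 0; x 1)`. -/
def low (x : E) : GL (Fin 2) E where
  val := !![1, 0; x, 1]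
  inv := !![1, 0; -x, 1]
  val_inv := by ext i j; fin_cases i <;> fin_cases j <;> simp [Matrix.mul_apply, Fin.sum_univ_two]
  inv_val := by ext i j; fin_cases i <;> fin_cases j <;> simp [Matrix.mul_apply, Fin.sum_univ_two]

@[simp] theorem low_val (x : E) : (low x).val = !![1, 0; x, 1] := rfl

/-- The entries of `dia a`. -/
theorem dia_val (a : Eˣ) : (dia a).val = !![(a : E), 0; 0, 1] := rfl

/-- The entries of `unip x`. -/
theorem unip_val (x : E) : (unip x).val = !![1, x; 0, 1] := rfl

/-- `low` is a homomorphism. -/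
theorem low_mul (x y : E) : low x * low y = low (x + y) := by
  ext i j; fin_cases i <;> fin_cases j <;> simp [Matrix.mul_apply, Fin.sum_univ_two]

/-- `unip` is a homomorphism. -/
theorem unip_mul (x y : E) : unip x * unip y = unip (x + y) :=
  (AddChar.map_add_eq_mul _ x y).symm

/-- A scalar times a matrix congruent to one. -/
def Near (v : Valuation E ℤᵐ⁰) (g : GL (Fin 2) E) : Prop :=
  ∃ c : E, ∀ i j, v (c * g.val i j - (1 : Matrix (Fin 2) (Fin 2) E) i j) < 1

/-- Scalars are near. -/
theorem near_scalar {g : GL (Fin 2) E} {c : E} (hc : c ≠ 0)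
    (h : ∀ i j, g.val i j = c * (1 : Matrix (Fin 2) (Fin 2) E) i j) : Near v g :=
  ⟨c⁻¹, fun i j => by rw [h, inv_mul_cancel_left₀ hc, sub_self, map_zero]; exact zero_lt_one⟩

/-- Small upper unipotents are near. -/
theorem near_unip {x : E} (hx : v x < 1) : Near v (unip x) :=
  ⟨1, fun i j => by fin_cases i <;> fin_cases j <;> simp [hx]⟩

/-- Small lower unipotents are near. -/
theorem near_low {x : E} (hx : v x < 1) : Near v (low x) :=
  ⟨1, fun i j => by fin_cases i <;> fin_cases j <;> simp [hx]⟩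

/-- `dia a` is near for `a` congruent to one. -/
theorem near_dia {a : Eˣ} (ha : v ((a : E) - 1) < 1) : Near v (dia a) :=
  ⟨1, fun i j => by fin_cases i <;> fin_cases j <;> simp [dia_val, ha]⟩

/-- Integral with unit determinant. -/
def IsInt (v : Valuation E ℤᵐ⁰) (k : GL (Fin 2) E) : Prop :=
  (∀ i j, v (k.val i j) ≤ 1) ∧ ∀ i j, v ((k⁻¹).val i j) ≤ 1

/-- Integral matrices with unit determinant are closed under inverses. -/
theorem IsInt.inv {k : GL (Fin 2) E} (h : IsInt v k) : IsInt v k⁻¹ :=
  ⟨h.2, by rw [inv_inv]; exact h.1⟩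

/-- Integral upper unipotents are integral. -/
theorem isInt_unip {x : E} (hx : v x ≤ 1) : IsInt v (unip x) := by
  refine ⟨fun i j => ?_, fun i j => ?_⟩
  · fin_cases i <;> fin_cases j <;> simp [hx]
  · have : (unip x)⁻¹ = unip (-x) := (AddChar.map_neg_eq_inv _ x).symm
    rw [this]
    fin_cases i <;> fin_cases j <;> simp [Valuation.map_neg, hx]

/-- `dia a` is integral for a unit `a`. -/
theorem isInt_dia {a : Eˣ} (ha : v (a : E) = 1) : IsInt v (dia a) := by
  refine ⟨fun i j => ?_, fun i j => ?_⟩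
  · fin_cases i <;> fin_cases j <;> simp [dia_val, ha]
  · have : (dia a)⁻¹ = dia a⁻¹ := inv_eq_of_mul_eq_one_right (by
      rw [← Whittaker.dia_mul, mul_inv_cancel, Whittaker.dia_one])
    rw [this]
    fin_cases i <;> fin_cases j <;> simp [dia_val, map_inv₀, ha]

/-- Conjugation by integral matrices preserves congruences. -/
theorem Near.conj {g k : GL (Fin 2) E} (hg : Near v g) (hk : IsInt v k) :
    Near v (k⁻¹ * g * k) := by
  obtain ⟨c, hc⟩ := hg
  refine ⟨c, fun i j => ?_⟩
  have key : c * (k⁻¹ * g * k).val i j - (1 : Matrix (Fin 2) (Fin 2) E) i j =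
      ((k⁻¹).val * (c • g.val - 1) * k.val) i j := by
    rw [Matrix.mul_sub, Matrix.sub_mul, Matrix.mul_one, ← Units.val_mul (k⁻¹) k, inv_mul_cancel,
      Units.val_one, Matrix.sub_apply, Matrix.mul_smul, Matrix.smul_mul, ← Units.val_mul,
      ← Units.val_mul, Matrix.smul_apply, smul_eq_mul]
  rw [key, Matrix.mul_apply]
  refine Valuation.map_sum_lt _ one_ne_zero fun a _ => ?_
  rw [map_mul, Matrix.mul_apply]
  refine lt_of_le_of_lt (mul_le_of_le_one_right' (hk.1 a j)) ?_
  refine Valuation.map_sum_lt _ one_ne_zero fun b _ => ?_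
  rw [map_mul]
  refine lt_of_le_of_lt (mul_le_of_le_one_left' (hk.2 i b)) ?_
  simpa using hc b a

/-- A uniformiser. -/
structure IsUnif (v : Valuation E ℤᵐ⁰) (π : Eˣ) : Prop where
  lt : v (π : E) < 1
  le_of_lt : ∀ x, v x < 1 → v x ≤ v (π : E)

/-- Small elements are divisible by the uniformiser. -/
theorem IsUnif.div {π : Eˣ} (hπ : IsUnif v π) {x : E} (hx : v x < 1) : v (x / π) ≤ 1 := by
  rw [map_div₀]
  exact (div_le_one₀ (zero_lt_iff.mpr ((v.ne_zero_iff).mpr π.ne_zero))).mpr (hπ.le_of_lt x hx)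

/-- Multiples of the uniformiser are small. -/
theorem IsUnif.mul_lt {π : Eˣ} (hπ : IsUnif v π) {x : E} (hx : v x ≤ 1) :
    v ((π : E) * x) < 1 := by
  rw [map_mul]
  exact lt_of_le_of_lt (mul_le_of_le_one_right' hx) hπ.lt

/-- A difference of small elements is small. -/
theorem sub_lt {x y : E} (hx : v x < 1) (hy : v y < 1) : v (x - y) < 1 :=
  lt_of_le_of_lt (v.map_sub _ _) (max_lt hx hy)

/-- A small element times an integral one is small. -/
theorem mul_lt_left {x y : E} (hx : v x < 1) (hy : v y ≤ 1) : v (x * y) < 1 := by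
  rw [map_mul]; exact lt_of_le_of_lt (mul_le_of_le_one_right' hy) hx

/-- An element congruent to an integral one is integral. -/
theorem le_one_of_near {x y : E} (hy : v y ≤ 1) (h : v (x - y) < 1) : v x ≤ 1 := by
  rw [← sub_add_cancel x y]
  exact (v.map_add _ _).trans (max_le h.le hy)

/-- Conjugation by `dia π` of a congruence is a congruence times an integral unipotent. -/
theorem Near.conj_dia {g : GL (Fin 2) E} {π : Eˣ} (hπ : IsUnif v π) (hg : Near v g) :
    ∃ x k, v x ≤ 1 ∧ Near v k ∧ g * dia π = dia π * unip x * k := by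
  obtain ⟨c, hc⟩ := hg
  have h01 : v (c * g.val 0 1) < 1 := by simpa using hc 0 1
  have h10 : v (c * g.val 1 0) < 1 := by simpa using hc 1 0
  have h00 : v (c * g.val 0 0 - 1) < 1 := by simpa using hc 0 0
  have h11 : v (c * g.val 1 1 - 1) < 1 := by simpa using hc 1 1
  set x := c * g.val 0 1 / π with hx
  have hx1 : v x ≤ 1 := hπ.div h01
  refine ⟨x, (dia π * unip x)⁻¹ * (g * dia π), hx1, ⟨c, fun i j => ?_⟩, by group⟩
  have hinv : ((dia π * unip x)⁻¹).val = !![(π⁻¹ : E), -x; 0, 1] := by
    rw [_root_.mul_inv_rev, show (unip x)⁻¹ = unip (-x) from (AddChar.map_neg_eq_inv _ x).symm,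
      show (dia π)⁻¹ = dia π⁻¹ from inv_eq_of_mul_eq_one_right (by
        rw [← Whittaker.dia_mul, mul_inv_cancel, Whittaker.dia_one]), Units.val_mul, dia_val,
      unip_val]
    ext i j; fin_cases i <;> fin_cases j <;> simp [Matrix.mul_apply, Fin.sum_univ_two]
  have hπ0 : (π : E) ≠ 0 := π.ne_zero
  rw [Units.val_mul, Units.val_mul, hinv, dia_val]
  have hcx : c * g.val 0 1 = (π : E) * x := by rw [hx]; field_simp
  fin_cases i <;> fin_cases j <;>
    simp only [Matrix.mul_apply, Fin.sum_univ_two, Matrix.of_apply, Matrix.cons_val',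
      Matrix.cons_val_zero, Matrix.cons_val_one, Matrix.cons_val_fin_one, Fin.zero_eta,
      Fin.mk_one, Matrix.one_apply_eq, ne_eq, one_ne_zero, zero_ne_one, not_false_eq_true,
      Matrix.one_apply_ne, mul_zero, add_zero, zero_add, zero_mul, one_mul, mul_one, sub_zero]
  · rw [show c * ((↑π)⁻¹ * (g.val 0 0 * π) + -x * (g.val 1 0 * π)) - 1 =
      (c * g.val 0 0 - 1) - x * (π * (c * g.val 1 0)) by field_simp; ring]
    exact sub_lt h00 (by
      rw [map_mul]; exact lt_of_le_of_lt (mul_le_of_le_one_left' hx1) (hπ.mul_lt h10.le))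
  · rw [show c * ((↑π)⁻¹ * g.val 0 1 + -x * g.val 1 1) = x * (-(c * g.val 1 1 - 1)) by
      rw [hx]; field_simp; ring]
    rw [map_mul, Valuation.map_neg]
    exact lt_of_le_of_lt (mul_le_of_le_one_left' hx1) h11
  · rw [← mul_assoc]; exact mul_lt_left h10 hπ.lt.le
  · exact h11

/-- Representatives of the residue classes. -/
structure ResList (v : Valuation E ℤᵐ⁰) {κ : Type*} (r : κ → E) : Prop where
  integral : ∀ i, v (r i) ≤ 1
  exists_near : ∀ x, v x ≤ 1 → ∃ i, v (x - r i) < 1
  inj : ∀ i j, v (r i - r j) < 1 → i = j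

/-- A sum over residue classes is invariant under injective self-maps of the classes. -/
theorem ResList.sum_map {κ : Type*} [Fintype κ] {r : κ → E} (hr : ResList v r)
    {M : Type*} [AddCommMonoid M] (G : E → M)
    (hG : ∀ x y, v y ≤ 1 → v (x - y) < 1 → G x = G y) (f : E → E)
    (hf : ∀ i, v (f (r i)) ≤ 1) (hinj : ∀ i j, v (f (r i) - f (r j)) < 1 → i = j) :
    ∑ i, G (f (r i)) = ∑ i, G (r i) := by
  choose idx hidx using fun i => hr.exists_near _ (hf i)
  have hbij : Function.Injective idx := fun i j h => hinj i j (by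
    rw [show f (r i) - f (r j) = (f (r i) - r (idx i)) - (f (r j) - r (idx j)) by rw [h]; ring]
    exact sub_lt (hidx i) (hidx j))
  rw [Finset.sum_congr rfl fun i _ => hG _ _ (hr.integral _) (hidx i)]
  exact (Finite.injective_iff_bijective.mp hbij).sum_comp (fun i => G (r i))

/-- Residue sums of congruence-invariant functions are translation invariant. -/
theorem ResList.sum_add {κ : Type*} [Fintype κ] {r : κ → E} (hr : ResList v r)
    {M : Type*} [AddCommMonoid M] (G : E → M)
    (hG : ∀ x y, v y ≤ 1 → v (x - y) < 1 → G x = G y) {x : E} (hx : v x ≤ 1) :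
    ∑ i, G (x + r i) = ∑ i, G (r i) :=
  hr.sum_map G hG (fun y => x + y) (fun i => (v.map_add _ _).trans (max_le hx (hr.integral i)))
    fun i j h => hr.inj i j (by rwa [show x + r i - (x + r j) = r i - r j by ring] at h)

/-- Residue sums of congruence-invariant functions are invariant under unit scaling. -/
theorem ResList.sum_mul {κ : Type*} [Fintype κ] {r : κ → E} (hr : ResList v r)
    {M : Type*} [AddCommMonoid M] (G : E → M)
    (hG : ∀ x y, v y ≤ 1 → v (x - y) < 1 → G x = G y) {t : E} (ht : v t = 1) :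
    ∑ i, G (t * r i) = ∑ i, G (r i) :=
  hr.sum_map G hG (fun y => t * y) (fun i => by rw [map_mul, ht, one_mul]; exact hr.integral i)
    fun i j h => hr.inj i j (by rwa [← mul_sub, map_mul, ht, one_mul] at h)

/-- If `τ` is trivial on residues, multiplies `π` by `z` and has `τ³ π = π`, then `z` is a cube
root of unity modulo the maximal ideal. -/
theorem valued_pow_three_sub_one_lt {τ : E ≃+* E} (hτ : ∀ x, v (τ x) = v x)
    (hres : ∀ x, v x ≤ 1 → v (τ x - x) < 1) {π z : E} (hπ : π ≠ 0) (hπz : τ π = π * z)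
    (h3 : τ (τ (τ π)) = π) (hz : v z = 1) : v (z ^ 3 - 1) < 1 := by
  simp only [hπz, map_mul, mul_assoc] at h3
  have e : z * (τ z * τ (τ z)) = 1 := mul_left_cancel₀ hπ (h3.trans (mul_one _).symm)
  have h1 : v (τ z - z) < 1 := hres z hz.le
  have h2 : v (τ (τ z) - z) < 1 := by
    rw [show τ (τ z) - z = (τ (τ z) - τ z) + (τ z - z) by ring]
    exact Valuation.map_add_lt _ (hres _ (by rw [hτ, hz])) h1
  rw [show z ^ 3 - 1 = z * ((z - τ z) * z + τ z * (z - τ (τ z))) by linear_combination e, map_mul,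
    hz, one_mul]
  refine Valuation.map_add_lt _ ?_ ?_ <;> rw [map_mul]
  · rw [hz, mul_one, Valuation.map_sub_swap]; exact h1
  · rw [Valuation.map_sub_swap _ z, hτ, hz, one_mul]; exact h2

end Fermat.Agent.LT.Rigidity.Tame
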