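import Fermat.Agent.LT.Rigidity.TameTrace.Operators
import Fermat.Agent.LT.Rigidity.Mix
import Fermat.Agent.LT.Rigidity.Three

/-!
# Invariance of the Whittaker function at a tame place outside the twisted components

If both nontrivial twisted projections kill `φ`, the average of `φ` over the integral unipotents
is invariant under `dia ζ`; the rest lives on one shell of order divisible by three. So replacing
the component at `w` by its conjugate does not move `a ↦ whit φ (dia a)`.
-/

set_option autoImplicit false

noncomputable section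

open IsDedekindDomain NumberField WithZero
open scoped NumberField

namespace Fermat.Agent.LT.Rigidity.Tame

open Places PlaceMatching Whittaker

variable {F : Type*} [Field F] [NumberField F]

/-- The additive character at `w` has conductor one less than a multiple of three. -/
def HasShellThree (w : FinPlace F) : Prop :=
  ∃ d : ℤ, 3 ∣ d + 1 ∧
    (∀ y : w.adicCompletion F, Valued.v y ≤ exp d → psiFin F (single w y) = 1) ∧
    ∃ y : w.adicCompletion F, Valued.v y ≤ exp (d + 1) ∧ psiFin F (single w y) ≠ 1

/-- Local units as diagonal adelic matrices. -/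
def diaLoc (w : FinPlace F) : (w.adicCompletion F)ˣ →* GLFin F where
  toFun e := dia (localUnit w e)
  map_one' := by rw [map_one, dia_one]
  map_mul' a b := by rw [map_mul, dia_mul]

theorem localGL_dia' (w : FinPlace F) (e : (w.adicCompletion F)ˣ) :
    localGL w (dia e) = diaLoc w e := by
  show localGL w (dia e) = dia (localUnit w e)
  refine gl_ext fun v => ?_
  rcases eq_or_ne v w with rfl | hv
  · rw [glPlace_localGL_same]
    refine Units.ext (Matrix.ext fun i j => ?_)
    rw [glPlace_apply]
    fin_cases i <;> fin_cases j <;> simp [dia, toPlace_localUnit_same]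
  · rw [glPlace_localGL_ne hv]
    refine Units.ext (Matrix.ext fun i j => ?_)
    rw [glPlace_apply]
    fin_cases i <;> fin_cases j <;> simp [dia, toPlace_localUnit_ne hv]

/-- The local units acting trivially on the diagonal cosets. -/
def trivialUnits (U : Level F) (w : FinPlace F) : Subgroup (w.adicCompletion F)ˣ :=
  U.toSubgroup.comap (diaLoc w)

theorem mul_single_eq (w : FinPlace F) (a : FinAdele F) (x : w.adicCompletion F) :
    a * single w x = single w (toPlace w a * x) :=
  ext_toPlace fun v => by
    rcases eq_or_ne v w with rfl | hv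
    · rw [map_mul, toPlace_single_same, toPlace_single_same]
    · rw [map_mul, toPlace_single_ne hv, toPlace_single_ne hv, mul_zero]

/-- The character is trivial on `a · O_w`. -/
def PsiTrivial (w : FinPlace F) (a : (FinAdele F)ˣ) : Prop :=
  ∀ x : w.adicCompletion F, Valued.v x ≤ 1 → psiFin F ((a : FinAdele F) * single w x) = 1

theorem psiTrivial_mul_unit {w : FinPlace F} {a : (FinAdele F)ˣ} (h : PsiTrivial w a)
    {e : (w.adicCompletion F)ˣ} (he : Valued.v (e : w.adicCompletion F) = 1) :
    PsiTrivial w (a * localUnit w e) := fun x hx => by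
  rw [Units.val_mul, mul_assoc, mul_single_eq w (localUnit w e : FinAdele F),
    toPlace_localUnit_same]
  exact h _ (by rw [map_mul, he, one_mul]; exact hx)

namespace IsTamePlace

variable {σ : F ≃+* F} {U : Level F} {w : FinPlace F} (h : IsTamePlace σ U w)
include h

theorem mem_trivialUnits {e : (w.adicCompletion F)ˣ}
    (he : val w ((e : w.adicCompletion F) - 1) < 1) : e ∈ trivialUnits U w := by
  show diaLoc w e ∈ U.toSubgroup
  rw [← localGL_dia']
  exact h.level.congr _ (near_dia he)

omit h in
theorem diaCoset_mul_trivial {e : (w.adicCompletion F)ˣ} (he : e ∈ trivialUnits U w)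
    (a : (FinAdele F)ˣ) : diaCoset U (a * localUnit w e) = diaCoset U a := by
  show QuotientGroup.mk (dia (a * localUnit w e)) = QuotientGroup.mk (dia a)
  rw [dia_mul, QuotientGroup.eq]
  have he' : dia (localUnit w e) ∈ U.toSubgroup := he
  simpa using he'

theorem unip_single_fix {x : w.adicCompletion F} (hx : Valued.v x < 1) :
    unip (single w x) • (QuotientGroup.mk 1 : GLFin F ⧸ U.toSubgroup) = QuotientGroup.mk 1 := by
  show QuotientGroup.mk (unip (single w x) * 1) = QuotientGroup.mk 1
  rw [mul_one, QuotientGroup.eq, mul_one]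
  exact U.toSubgroup.inv_mem (by
    rw [← localGL_unip]
    exact h.level.congr _ (near_unip hx))

variable [NumberField.IsTotallyComplex F] {φ : Y U → ℂ} (hφ : IsCuspEigen φ) {ω : ℂ}
  (hω : ω ^ 3 = 1) (hω1 : ω ≠ 1) (h1 : (h.tameProj hω).op φ = 0)
  (h2 : (h.tameProj (show (ω ^ 2) ^ 3 = 1 by rw [← pow_mul, mul_comm, pow_mul, hω, one_pow])).op
    φ = 0)
include hφ hω hω1 h1 h2

omit [IsTotallyComplex F] hφ in
/-- The average over integral unipotents is invariant under `dia ζ`. -/
theorem dia_avg (P : InfinitePlace F → H3) :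
    rtLoc w (dia h.zeta) (avg (rtLoc w) (resLift w) (lift fun b => φ (P, b))) =
      avg (rtLoc w) (resLift w) (lift fun b => φ (P, b)) := by
  have hω2 : (ω ^ 2) ^ 3 = 1 := by rw [← pow_mul, mul_comm, pow_mul, hω, one_pow]
  have e1 := h.lift_tameProj hω φ P
  have e2 := h.lift_tameProj hω2 φ P
  rw [h1] at e1
  rw [h2] at e2
  set z := lift fun b => φ (P, b) with hz
  set y := avg (rtLoc w) (resLift w) z with hy
  have hyf : Fixed (rtLoc w) (val w) y :=
    fixed_avg (resList_resLift w) (h.level.fixed (invU_lift _))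
  set D := rtLoc w (dia h.zeta) with hD
  have hD3 : D (D (D y)) = y := dia_three h.zeta_three hyf
  change 0 = charProj (rtLoc w) h.zeta ω y at e1
  change 0 = charProj (rtLoc w) h.zeta (ω ^ 2) y at e2
  simp only [charProj, map_mul, LinearMap.smul_apply, LinearMap.add_apply, Module.End.one_apply,
    Module.End.mul_apply, ← hD] at e1 e2
  have e4 : ω ^ 2 - ω ≠ 0 := by
    rw [show ω ^ 2 - ω = ω * (ω - 1) by ring]
    exact mul_ne_zero (fun e => by simp [e] at hω) (sub_ne_zero.mpr hω1)
  have e3 : (ω ^ 2 - ω) • (D y - D (D y)) = 0 := by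
    have e1' : y + ω ^ 2 • D y + ω • D (D y) = 0 := by
      have := e1.symm
      rwa [smul_eq_zero, or_iff_right (inv_ne_zero (by norm_num : (3 : ℂ) ≠ 0))] at this
    have e2' : y + ω • D y + ω ^ 2 • D (D y) = 0 := by
      have := e2.symm
      rwa [smul_eq_zero, or_iff_right (inv_ne_zero (by norm_num : (3 : ℂ) ≠ 0)),
        show (ω ^ 2) ^ 2 = ω by linear_combination ω * hω] at this
    have := congrArg₂ (· - ·) e1' e2'
    simp only [sub_zero] at this
    rw [← this, smul_sub, sub_smul, sub_smul]
    abel
  have h12 : D y = D (D y) := sub_eq_zero.mp ((smul_eq_zero.mp e3).resolve_left e4)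
  have h23 : D (D y) = y := (congrArg D h12).trans hD3
  exact h12.trans h23

/-- Where the character is trivial, `ζ` does not move the Whittaker function. -/
theorem whit_mul_zeta {a : (FinAdele F)ˣ} (ha : PsiTrivial w a) :
    whit φ (diaCoset U (a * localUnit w h.zeta)) = whit φ (diaCoset U a) := by
  classical
  set b := a * localUnit w h.zeta with hb
  have hbT : PsiTrivial w b := psiTrivial_mul_unit ha h.valued_zeta
  let pt : Residue w ⊕ Residue w → GLFin F ⧸ U.toSubgroup :=
    Sum.elim (fun i => QuotientGroup.mk (dia b * unip (single w (resLift w i))))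
      (fun i => QuotientGroup.mk (dia a * unip (single w (resLift w i))))
  have key : ∀ P, ∑ i, (Sum.elim (fun _ => (1 : ℂ)) (fun _ => -1)) i * φ (P, pt i) = 0 := by
    intro P
    have hd := congrFun (h.dia_avg hω hω1 h1 h2 P) (dia a)
    have hc : (Fintype.card (Residue w) : ℂ)⁻¹ ≠ 0 :=
      inv_ne_zero (card_ne_zero (resList_resLift w))
    simp only [avg, LinearMap.smul_apply, nsum_apply, Pi.smul_apply,
      Finset.sum_apply, rtLoc_apply, smul_eq_mul, mul_right_inj' hc, localGL_unip, localGL_dia',
      lift] at hd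
    simp only [Fintype.sum_sum_type, pt, Sum.elim_inl, Sum.elim_inr, one_mul, neg_one_mul,
      Finset.sum_neg_distrib]
    rw [hb, dia_mul, ← sub_eq_add_neg, sub_eq_zero]
    exact hd
  have hsum := whit_eq_zero_of_sum Finset.univ _ hφ pt key
  simp only [Fintype.sum_sum_type, pt, Sum.elim_inl, Sum.elim_inr, one_mul, neg_one_mul,
    Finset.sum_neg_distrib, whit_dia_unip hφ, hbT _ (valued_resLift w _),
    ha _ (valued_resLift w _), Finset.sum_const, Finset.card_univ, ← sub_eq_add_neg, ← smul_sub,
    smul_eq_zero, Fintype.card_ne_zero, false_or, sub_eq_zero] at hsum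
  exact hsum

omit hω hω1 h1 h2 in
/-- Off that set the Whittaker function lives on one shell. -/
theorem dvd_ord_of_ne_zero (hs : HasShellThree w) {a : (FinAdele F)ˣ} (hT : ¬ PsiTrivial w a)
    (hW : whit φ (diaCoset U a) ≠ 0) {n : ℤ} (hn : placeVal w (a : FinAdele F) = exp (-n)) :
    (3 : ℤ) ∣ n := by
  obtain ⟨d, hd, htriv, y, hy, hyne⟩ := hs
  have hlo : d + 1 ≤ -n := by
    by_contra hlt
    refine hT fun x hx => ?_
    rw [mul_single_eq]
    refine htriv _ ?_
    rw [map_mul, show Valued.v (toPlace w (a : FinAdele F)) = exp (-n) from hn]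
    exact (mul_le_of_le_one_right' hx).trans (exp_le_exp.mpr (by omega))
  have hhi : -n ≤ d + 1 := by
    by_contra hlt
    set aw := toPlace w (a : FinAdele F)
    have haw : aw ≠ 0 := toPlace_units_ne_zero w a
    have hx : Valued.v (aw⁻¹ * y) < 1 := by
      rw [map_mul, map_inv₀, show Valued.v aw = exp (-n) from hn, ← exp_neg, neg_neg]
      calc exp n * Valued.v y ≤ exp n * exp (d + 1) := mul_le_mul_right hy _
        _ = exp (n + (d + 1)) := (exp_add _ _).symm
        _ < exp 0 := exp_lt_exp.mpr (by omega)
        _ = 1 := exp_zero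
    have h1' := psiFin_mul_eq_one_of_fix hφ a (h.unip_single_fix hx) (by
      show whit φ (QuotientGroup.mk (dia a * 1)) ≠ 0
      rw [mul_one]
      exact hW)
    rw [mul_single_eq, ← mul_assoc, mul_inv_cancel₀ haw, one_mul] at h1'
    exact hyne h1'
  rw [show n = -(d + 1) by omega]
  exact dvd_neg.mpr hd

omit [IsTotallyComplex F] hφ hω hω1 h1 h2 in
theorem zpow_zeta_mem {n : ℤ} (hn : (3 : ℤ) ∣ n) : h.zeta ^ n ∈ trivialUnits U w := by
  obtain ⟨k, rfl⟩ := hn
  rw [zpow_mul]
  refine zpow_mem (h.mem_trivialUnits ?_) k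
  rw [show ((h.zeta ^ (3 : ℤ) : (w.adicCompletion F)ˣ) : w.adicCompletion F) =
    (h.zeta : w.adicCompletion F) ^ 3 by rw [zpow_ofNat, Units.val_pow_eq_pow_val]]
  exact h.zeta_three

/-- The powers of `ζ` dictated by the order. -/
theorem whit_mul_zeta_zpow (hs : HasShellThree w) (a : (FinAdele F)ˣ) {n : ℤ}
    (hn : placeVal w (a : FinAdele F) = exp (-n)) :
    whit φ (diaCoset U (a * localUnit w (h.zeta ^ n))) = whit φ (diaCoset U a) := by
  by_cases h3 : (3 : ℤ) ∣ n
  · rw [diaCoset_mul_trivial (h.zpow_zeta_mem h3)]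
  by_cases hT : PsiTrivial w a
  · have hnat : ∀ k : ℕ, whit φ (diaCoset U (a * localUnit w (h.zeta ^ k))) =
        whit φ (diaCoset U a) := by
      intro k
      induction k with
      | zero => rw [pow_zero, map_one, mul_one]
      | succ k ih =>
        rw [pow_succ, map_mul, ← mul_assoc, h.whit_mul_zeta hφ hω hω1 h1 h2
          (psiTrivial_mul_unit hT (by
            rw [Units.val_pow_eq_pow_val, map_pow]
            exact (congrArg (· ^ k) h.valued_zeta).trans (one_pow k))), ih]
    obtain ⟨k, hk⟩ := Int.eq_ofNat_of_zero_le (Int.emod_nonneg n (by norm_num : (3 : ℤ) ≠ 0))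
    rw [← Int.emod_add_mul_ediv n 3, hk, zpow_add, map_mul, zpow_natCast, ← mul_assoc,
      diaCoset_mul_trivial (h.zpow_zeta_mem ⟨n / 3, rfl⟩), hnat]
  · have hu : Valued.v ((h.zeta ^ n : (w.adicCompletion F)ˣ) : w.adicCompletion F) = 1 := by
      rw [Units.val_zpow_eq_zpow_val, map_zpow₀]
      exact (congrArg (· ^ n) h.valued_zeta).trans (one_zpow n)
    have hT' : ¬ PsiTrivial w (a * localUnit w (h.zeta ^ n)) := fun hT' => hT fun x hx => by
      have := psiTrivial_mul_unit hT' (e := (h.zeta ^ n)⁻¹)
        (by rw [Units.val_inv_eq_inv_val, map_inv₀, hu, inv_one])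
      rw [mul_assoc, ← map_mul, mul_inv_cancel, map_one, mul_one] at this
      exact this x hx
    have hn' : placeVal w ((a * localUnit w (h.zeta ^ n) : (FinAdele F)ˣ) : FinAdele F) =
        exp (-n) := by
      rw [Units.val_mul, placeVal_mul, hn, placeVal, toPlace_localUnit_same, hu, mul_one]
    have z1 : whit φ (diaCoset U a) = 0 :=
      by_contra fun hW => h3 (h.dvd_ord_of_ne_zero hφ hs hT hW hn)
    have z2 : whit φ (diaCoset U (a * localUnit w (h.zeta ^ n))) = 0 :=
      by_contra fun hW => h3 (h.dvd_ord_of_ne_zero hφ hs hT' hW hn')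
    rw [z1, z2]

/-- **Invariance** outside the twisted components. -/
theorem whit_mix (hs : HasShellThree w) (a : (FinAdele F)ˣ) :
    whit φ (diaCoset U (mix {w} a (idelMap σ a))) = whit φ (diaCoset U a) := by
  set τ := placeIso σ h.fixed
  set n := (ord w a).toAdd
  have hn : placeVal w (a : FinAdele F) = exp (-n) := placeVal_eq_exp_ord w a
  set aw := toPlace w (a : FinAdele F) with haw
  have haw0 : aw ≠ 0 := toPlace_units_ne_zero w a
  set u := aw * ((piLocal w : w.adicCompletion F) ^ n)⁻¹ with hu
  have hu1 : Valued.v u = 1 := by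
    rw [hu, map_mul, map_inv₀, map_zpow₀, valued_piLocal,
      show Valued.v aw = exp (-n) from hn, ← exp_zsmul, zsmul_eq_mul, Int.cast_id, mul_neg_one,
      mul_inv_cancel₀ exp_ne_zero]
  have hu0 : u ≠ 0 := fun e => by simp [e] at hu1
  have hpw : (piLocal w : w.adicCompletion F) ^ n ≠ 0 := zpow_ne_zero _ (piLocal w).ne_zero
  set e : (w.adicCompletion F)ˣ :=
    Units.mk0 (τ u / u) (div_ne_zero ((map_ne_zero _).mpr hu0) hu0) with he
  have hmem : e ∈ trivialUnits U w := by
    refine h.mem_trivialUnits ?_
    show Valued.v (τ u / u - 1) < 1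
    rw [div_sub_one hu0, map_div₀, hu1, div_one]
    exact h.residue u hu1.le
  have hτa : τ aw = aw * ((h.zeta ^ n : (w.adicCompletion F)ˣ) : w.adicCompletion F) *
      (e : w.adicCompletion F) := by
    have e0 : aw = (piLocal w : w.adicCompletion F) ^ n * u := by
      rw [hu, mul_comm aw, mul_inv_cancel_left₀ hpw]
    rw [e0, map_mul, map_zpow₀, h.placeIso_piLocal, mul_zpow, Units.val_zpow_eq_zpow_val, he,
      Units.val_mk0]
    field_simp
  have hmix : mix {w} a (idelMap σ a) = a * localUnit w (h.zeta ^ n) * localUnit w e := by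
    refine units_ext fun v => ?_
    rcases eq_or_ne v w with rfl | hv
    · rw [toPlace_mix_of_mem (Finset.mem_singleton_self _), idelMap_val,
        toPlace_finMap h.fixed, ← haw, hτa, Units.val_mul, Units.val_mul, map_mul, map_mul,
        toPlace_localUnit_same, toPlace_localUnit_same]
    · rw [toPlace_mix_of_notMem (by simpa using hv), Units.val_mul, Units.val_mul, map_mul,
        map_mul, toPlace_localUnit_ne hv, toPlace_localUnit_ne hv, mul_one, mul_one]
  rw [hmix, diaCoset_mul_trivial hmem]
  exact h.whit_mul_zeta_zpow hφ hω hω1 h1 h2 hs a hn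

end IsTamePlace

end Fermat.Agent.LT.Rigidity.Tame

end
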