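import Fermat.Agent.LT.Rigidity.TameTrace.Congruence
import Mathlib.Analysis.Complex.Basic
import Mathlib.Algebra.Algebra.Bilinear

/-!
# The local operators of the tame vanishing argument

In a representation of `GL₂(E)`, on vectors fixed by scalars and the first congruence subgroup,
`proj` projects to the vectors fixed by the integral unipotents on which `dia ζ` is `χ`, and the
Iwahori operator `up` has a multiple of `down` as inverse there when `χ ^ 2 ≠ 1`.
-/

set_option autoImplicit false

noncomputable section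

open WithZero Matrix

namespace Fermat.Agent.LT.Rigidity.Tame

variable {E Z κ : Type*} [Field E] [AddCommGroup Z] [Module ℂ Z] [Fintype κ]
  (R : GL (Fin 2) E →* Module.End ℂ Z) (v : Valuation E ℤᵐ⁰) (π ζ : Eˣ) (r : κ → E)

/-- Fixed by scalars and the first congruence subgroup. -/
def Fixed (z : Z) : Prop := ∀ g, Near v g → R g z = z

/-- Fixed by the integral unipotents. -/
def NInv (z : Z) : Prop := ∀ x, v x ≤ 1 → R (unip x) z = z

/-- Fixed, invariant under the integral unipotents, an eigenvector of `dia ζ`. -/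
structure IsEig (χ : ℂ) (z : Z) : Prop where
  fixed : Fixed R v z
  ninv : NInv R v z
  eig : R (dia ζ) z = χ • z

/-- The sum over the unipotent residues. -/
def nsum : Module.End ℂ Z := ∑ i, R (unip (r i))

/-- The sum over the lower unipotent residues. -/
def lsum : Module.End ℂ Z := ∑ i, R (low (r i))

/-- The average over the unipotent residues. -/
def avg : Module.End ℂ Z := (Fintype.card κ : ℂ)⁻¹ • nsum R r

/-- The projection to `χ` for `dia ζ` of order three. -/
def charProj (χ : ℂ) : Module.End ℂ Z :=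
  (3 : ℂ)⁻¹ • (1 + χ ^ 2 • R (dia ζ) + χ • R (dia ζ * dia ζ))

/-- The twisted projection. -/
def proj (χ : ℂ) : Module.End ℂ Z := charProj R ζ χ * avg R r

/-- The Iwahori operator of `dia π`. -/
def up (χ : ℂ) : Module.End ℂ Z := nsum R r * R (dia π) * proj R ζ r χ

/-- The Iwahori operator of `dia π⁻¹`. -/
def down (χ : ℂ) : Module.End ℂ Z := R (dia π⁻¹) * lsum R r * proj R ζ r χ

variable {R v π ζ r}

/-- `R` is multiplicative. -/
theorem R_mul (g h : GL (Fin 2) E) (z : Z) : R (g * h) z = R g (R h z) := by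
  rw [map_mul, Module.End.mul_apply]

/-- The value of the sum over upper unipotent residues. -/
theorem nsum_apply (z : Z) : nsum R r z = ∑ i, R (unip (r i)) z := by
  simp [nsum]

/-- The value of the sum over lower unipotent residues. -/
theorem lsum_apply (z : Z) : lsum R r z = ∑ i, R (low (r i)) z := by
  simp [lsum]

/-- Integral matrices preserve the fixed vectors. -/
theorem Fixed.int {z : Z} (hz : Fixed R v z) {k : GL (Fin 2) E} (hk : IsInt v k) :
    Fixed R v (R k z) := fun g hg => by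
  rw [← R_mul, show g * k = k * (k⁻¹ * g * k) by group, R_mul, hz _ (hg.conj hk)]

/-- Fixed vectors are closed under sums. -/
theorem Fixed.add {z y : Z} (hz : Fixed R v z) (hy : Fixed R v y) : Fixed R v (z + y) :=
  fun g hg => by rw [map_add, hz g hg, hy g hg]

/-- Fixed vectors are closed under scalars. -/
theorem Fixed.smul {z : Z} (hz : Fixed R v z) (c : ℂ) : Fixed R v (c • z) :=
  fun g hg => by rw [map_smul, hz g hg]

/-- Fixed vectors are closed under finite sums. -/
theorem Fixed.sum {ι : Type*} {s : Finset ι} {f : ι → Z} (h : ∀ i ∈ s, Fixed R v (f i)) :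
    Fixed R v (∑ i ∈ s, f i) :=
  fun g hg => by rw [map_sum]; exact Finset.sum_congr rfl fun i hi => h i hi g hg

/-- Unipotent invariants are closed under sums. -/
theorem NInv.add {z y : Z} (hz : NInv R v z) (hy : NInv R v y) : NInv R v (z + y) :=
  fun x hx => by rw [map_add, hz x hx, hy x hx]

/-- Unipotent invariants are closed under scalars. -/
theorem NInv.smul {z : Z} (hz : NInv R v z) (c : ℂ) : NInv R v (c • z) :=
  fun x hx => by rw [map_smul, hz x hx]

/-- On fixed vectors, `unip x` depends on `x` modulo the maximal ideal. -/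
theorem Fixed.unip_congr {z : Z} (hz : Fixed R v z) {x y : E} (h : v (x - y) < 1) :
    R (unip x) z = R (unip y) z := by
  rw [show unip x = unip y * unip (x - y) by rw [unip_mul, add_sub_cancel], R_mul,
    hz _ (near_unip h)]

theorem Fixed.low_congr {z : Z} (hz : Fixed R v z) {x y : E} (h : v (x - y) < 1) :
    R (low x) z = R (low y) z := by
  rw [show low x = low y * low (x - y) by rw [low_mul, add_sub_cancel], R_mul, hz _ (near_low h)]

section Residues

variable (hr : ResList v r)
include hr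

theorem fixed_nsum {z : Z} (hz : Fixed R v z) : Fixed R v (nsum R r z) := by
  rw [nsum_apply]
  exact Fixed.sum fun i _ => hz.int (isInt_unip (hr.integral i))

theorem nInv_nsum {z : Z} (hz : Fixed R v z) : NInv R v (nsum R r z) := fun x hx => by
  rw [nsum_apply, map_sum]
  simp only [← R_mul, unip_mul]
  exact hr.sum_add (fun y => R (unip y) z) (fun _ _ _ h => hz.unip_congr h) hx

theorem nsum_unip {z : Z} (hz : Fixed R v z) {x : E} (hx : v x ≤ 1) :
    nsum R r (R (unip x) z) = nsum R r z := by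
  rw [nsum_apply, nsum_apply]
  simp only [← R_mul, unip_mul, add_comm _ x]
  exact hr.sum_add (fun y => R (unip y) z) (fun _ _ _ h => hz.unip_congr h) hx

theorem nsum_eq_of_nInv {z : Z} (hz : NInv R v z) :
    nsum R r z = (Fintype.card κ : ℂ) • z := by
  rw [nsum_apply, Finset.sum_congr rfl fun i _ => hz _ (hr.integral i), Finset.sum_const,
    Finset.card_univ, Nat.cast_smul_eq_nsmul ℂ]

/-- The number of residues is nonzero. -/
theorem card_ne_zero : (Fintype.card κ : ℂ) ≠ 0 := by
  obtain ⟨i, -⟩ := hr.exists_near 0 (by simp)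
  exact Nat.cast_ne_zero.mpr (Fintype.card_pos_iff.mpr ⟨i⟩).ne'

/-- Averages of fixed vectors are fixed. -/
theorem fixed_avg {z : Z} (hz : Fixed R v z) : Fixed R v (avg R r z) :=
  (fixed_nsum hr hz).smul _

theorem nInv_avg {z : Z} (hz : Fixed R v z) : NInv R v (avg R r z) :=
  (nInv_nsum hr hz).smul _

/-- Averaging does nothing to unipotent invariants. -/
theorem avg_eq_self {z : Z} (hz : NInv R v z) : avg R r z = z := by
  show (Fintype.card κ : ℂ)⁻¹ • nsum R r z = z
  rw [nsum_eq_of_nInv hr hz, inv_smul_smul₀ (card_ne_zero hr)]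

theorem dia_nsum {a : Eˣ} (ha : v (a : E) = 1) {z : Z} (hz : Fixed R v z) :
    R (dia a) (nsum R r z) = nsum R r (R (dia a) z) := by
  rw [nsum_apply, nsum_apply, map_sum]
  simp only [← R_mul, Whittaker.dia_mul_unip]
  simp only [R_mul]
  exact hr.sum_mul (fun y => R (unip y) (R (dia a) z))
    (fun _ _ _ h => (hz.int (isInt_dia ha)).unip_congr h) ha

/-- `proj χ` on an eigenvector. -/
theorem proj_eq_of_isEig {χ χ' : ℂ} {z : Z} (hz : IsEig R v ζ χ' z) :
    proj R ζ r χ z = ((3 : ℂ)⁻¹ * (1 + χ ^ 2 * χ' + χ * (χ' * χ'))) • z := by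
  show charProj R ζ χ (avg R r z) = _
  rw [avg_eq_self hr hz.ninv]
  simp [charProj, map_mul, hz.eig, mul_add, add_smul, smul_smul, mul_assoc]

/-- `proj χ` fixes the `χ`-eigenvectors. -/
theorem proj_self {χ : ℂ} (hχ : χ ^ 3 = 1) {z : Z} (hz : IsEig R v ζ χ z) :
    proj R ζ r χ z = z := by
  rw [proj_eq_of_isEig hr hz, show (3 : ℂ)⁻¹ * (1 + χ ^ 2 * χ + χ * (χ * χ)) = 1 by
    linear_combination ((2 : ℂ) / 3) * hχ, one_smul]

/-- The twisted projection kills the other eigencomponents. -/
theorem proj_of_ne {χ χ' : ℂ} (hχ : χ ^ 3 = 1) (hχ' : χ' ^ 3 = 1) (hne : χ ≠ χ') {z : Z}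
    (hz : IsEig R v ζ χ' z) : proj R ζ r χ z = 0 := by
  rw [proj_eq_of_isEig hr hz]
  have h : (χ - χ') * (1 + χ ^ 2 * χ' + χ * (χ' * χ')) = 0 := by
    linear_combination (χ' + 0) * hχ + (-χ) * hχ'
  rw [(mul_eq_zero.mp h).resolve_left (sub_ne_zero.mpr hne), mul_zero, zero_smul]

variable (hζ : v (ζ : E) = 1) (hζ3 : v ((ζ : E) ^ 3 - 1) < 1)
include hζ hζ3

omit [Fintype κ] hr hζ in
/-- `dia ζ` has order three on fixed vectors. -/
theorem dia_three {z : Z} (hz : Fixed R v z) :
    R (dia ζ) (R (dia ζ) (R (dia ζ) z)) = z := by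
  rw [← R_mul, ← R_mul, ← Whittaker.dia_mul, ← Whittaker.dia_mul]
  exact hz _ (near_dia (by simpa [pow_succ, mul_assoc] using hζ3))

omit [Fintype κ] hr in
theorem isEig_charProj {χ : ℂ} (hχ : χ ^ 3 = 1) {z : Z} (hz : Fixed R v z) (hn : NInv R v z) :
    IsEig R v ζ χ (charProj R ζ χ z) := by
  have hf1 : Fixed R v (R (dia ζ) z) := hz.int (isInt_dia hζ)
  have hn' : ∀ {y}, NInv R v y → NInv R v (R (dia ζ) y) := fun {y} hy x hx => by
    have e : unip x * dia ζ = dia ζ * unip ((ζ : E)⁻¹ * x) := by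
      rw [Whittaker.dia_mul_unip, mul_inv_cancel_left₀ ζ.ne_zero]
    rw [← R_mul, e, R_mul, hy _ (by rw [map_mul, map_inv₀, hζ, inv_one, one_mul]; exact hx)]
  have happ : charProj R ζ χ z =
      (3 : ℂ)⁻¹ • (z + χ ^ 2 • R (dia ζ) z + χ • R (dia ζ) (R (dia ζ) z)) := by
    simp [charProj, map_mul]
  rw [happ]
  refine ⟨((hz.add (hf1.smul _)).add ((hf1.int (isInt_dia hζ)).smul _)).smul _,
    ((hn.add ((hn' hn).smul _)).add ((hn' (hn' hn)).smul _)).smul _, ?_⟩
  simp only [map_smul, map_add, dia_three hζ3 hz, smul_add, smul_smul]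
  rw [show χ * ((3 : ℂ)⁻¹ * χ ^ 2) = (3 : ℂ)⁻¹ * χ ^ 3 by ring, hχ, mul_one,
    show χ * ((3 : ℂ)⁻¹ * χ) = (3 : ℂ)⁻¹ * χ ^ 2 by ring, mul_comm χ (3 : ℂ)⁻¹]
  abel

/-- The twisted projection lands in the eigencomponent. -/
theorem isEig_proj {χ : ℂ} (hχ : χ ^ 3 = 1) {z : Z} (hz : Fixed R v z) :
    IsEig R v ζ χ (proj R ζ r χ z) :=
  isEig_charProj hζ hζ3 hχ (fixed_avg hr hz) (nInv_avg hr hz)

variable (hπ : IsUnif v π)
include hπ

omit hζ3 in
theorem isEig_up_of_isEig {χ : ℂ} {z : Z} (hz : IsEig R v ζ χ z) :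
    IsEig R v ζ χ (nsum R r (R (dia π) z)) := by
  have hf : Fixed R v (R (dia π) z) := fun g hg => by
    obtain ⟨x, k, hx, hk, e⟩ := hg.conj_dia hπ
    rw [← R_mul, e, R_mul, hz.fixed k hk, R_mul, hz.ninv x hx]
  refine ⟨fixed_nsum hr hf, nInv_nsum hr hf, ?_⟩
  rw [dia_nsum hr hζ hf, ← R_mul, ← Whittaker.dia_mul, mul_comm, Whittaker.dia_mul, R_mul, hz.eig,
    map_smul, map_smul]

omit hπ hζ3 in
/-- The mixed sum on an eigenvector with `χ ^ 2 ≠ 1`. -/
theorem nsum_lsum {χ : ℂ} (hχ : χ ^ 2 ≠ 1) {z : Z} (hz : IsEig R v ζ χ z) :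
    nsum R r (lsum R r z) = (Fintype.card κ : ℂ) • z := by
  classical
  let G : E → Z := fun y => if v y < 1 then 0 else nsum R r (R (low y) z)
  have hG : ∀ x y, v y ≤ 1 → v (x - y) < 1 → G x = G y := by
    intro x y hy h
    have hiff : v x < 1 ↔ v y < 1 := by
      constructor <;> intro h'
      · rw [show y = x - (x - y) by ring]; exact sub_lt h' h
      · rw [show x = y - -(x - y) by ring]; exact sub_lt h' (by rwa [Valuation.map_neg])
    show (if v x < 1 then 0 else _) = if v y < 1 then 0 else _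
    simp only [hiff, hz.fixed.low_congr h]
  have hstep : ∀ i, G ((ζ : E) * r i) = χ ^ 2 • G (r i) := by
    intro i
    have hlt : v ((ζ : E) * r i) < 1 ↔ v (r i) < 1 := by rw [map_mul, hζ, one_mul]
    show (if v ((ζ : E) * r i) < 1 then 0 else _) = χ ^ 2 • if v (r i) < 1 then 0 else _
    by_cases hy : v (r i) < 1
    · rw [if_pos (hlt.mpr hy), if_pos hy, smul_zero]
    · simp only [mt hlt.mp hy, hy, if_false]
      have h1 : v (r i) = 1 := le_antisymm (hr.integral i) (not_lt.mp hy)
      have hne : ∀ {y : E}, v y = 1 → y ≠ 0 := fun {y} h e => by simp [e] at h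
      let M : (y : E) → v y = 1 → GL (Fin 2) E := fun y hy' =>
        ⟨!![0, -y⁻¹; y, 0], !![0, y⁻¹; -y, 0],
          by ext i j; fin_cases i <;> fin_cases j <;>
            simp [Matrix.mul_apply, Fin.sum_univ_two, hne hy'],
          by ext i j; fin_cases i <;> fin_cases j <;>
            simp [Matrix.mul_apply, Fin.sum_univ_two, hne hy']⟩
      have hMi : ∀ y (hy' : v y = 1), IsInt v (M y hy') := fun y hy' => by
        constructor <;> intro a b <;> fin_cases a <;> fin_cases b <;>
          simp [M, Units.inv_mk, map_inv₀, Valuation.map_neg, hy']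
      have hred : ∀ y (hy' : v y = 1),
          nsum R r (R (low y) z) = nsum R r (R (M y hy') z) := fun y hy' => by
        have e : low y = unip y⁻¹ * M y hy' * unip y⁻¹ := by
          ext a b; fin_cases a <;> fin_cases b <;>
            simp [M, Matrix.mul_apply, Fin.sum_univ_two, hne hy']
        have hinv : v y⁻¹ ≤ 1 := by rw [map_inv₀, hy', inv_one]
        rw [e, R_mul, hz.ninv _ hinv, R_mul,
          nsum_unip hr (hz.fixed.int (hMi y hy')) hinv]
      have h2 : v ((ζ : E) * r i) = 1 := by rw [map_mul, hζ, h1, one_mul]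
      let S : GL (Fin 2) E := Units.map (Matrix.scalar (Fin 2)).toMonoidHom ζ⁻¹
      have hS : Near v S := near_scalar (ζ⁻¹).ne_zero fun a b => by
        by_cases h : a = b
        · subst h; simp [S]
        · simp [S, h]
      have eM : M _ h2 = M _ h1 * (dia ζ * dia ζ) * S := by
        ext a b; fin_cases a <;> fin_cases b <;>
          simp [M, S, dia_val, Matrix.mul_apply, Fin.sum_univ_two]
        field_simp
      rw [hred _ h2, hred _ h1, eM, R_mul, hz.fixed _ hS, R_mul, R_mul, hz.eig, map_smul, hz.eig,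
        smul_smul, map_smul, map_smul, pow_two]
  have h0 : ∑ i, G (r i) = 0 := by
    have h := hr.sum_mul G hG hζ
    simp only [hstep, ← Finset.smul_sum] at h
    have h' : (χ ^ 2 - 1) • ∑ i, G (r i) = 0 := by rw [sub_smul, one_smul, h, sub_self]
    exact (smul_eq_zero.mp h').resolve_left (sub_ne_zero.mpr hχ)
  obtain ⟨i₀, hi₀⟩ := hr.exists_near 0 (by simp)
  rw [zero_sub, Valuation.map_neg] at hi₀
  have hterm : ∀ i, nsum R r (R (low (r i)) z) =
      G (r i) + if i = i₀ then (Fintype.card κ : ℂ) • z else 0 := by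
    intro i
    show _ = (if v (r i) < 1 then 0 else _) + _
    by_cases hy : v (r i) < 1
    · have hi : i = i₀ := hr.inj _ _ (sub_lt hy hi₀)
      rw [if_pos hy, if_pos hi, zero_add, hz.fixed _ (near_low hy), nsum_eq_of_nInv hr hz.ninv]
    · have hi : i ≠ i₀ := fun e => hy (e ▸ hi₀)
      rw [if_neg hy, if_neg hi, add_zero]
  rw [lsum_apply, map_sum, Finset.sum_congr rfl fun i _ => hterm i, Finset.sum_add_distrib, h0,
    zero_add, Finset.sum_ite_eq' Finset.univ i₀, if_pos (Finset.mem_univ _)]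

variable {χ : ℂ} (hχ : χ ^ 3 = 1) {z : Z} (hz : Fixed R v z)
include hχ hz

/-- `up` lands in the `χ`-eigenvectors. -/
theorem isEig_up : IsEig R v ζ χ (up R π ζ r χ z) :=
  isEig_up_of_isEig hr hζ hπ (isEig_proj hr hζ hζ3 hχ hz)

omit hπ in
/-- `up` factors through `proj χ`. -/
theorem up_proj : up R π ζ r χ (proj R ζ r χ z) = up R π ζ r χ z := by
  simp only [up, Module.End.mul_apply, proj_self hr hχ (isEig_proj hr hζ hζ3 hχ hz)]

end Residues

end Fermat.Agent.LT.Rigidity.Tame

end
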