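import Fermat.Agent.LT.Rigidity.TameTrace.LocalRep
import Mathlib.RingTheory.RootsOfUnity.Basic

/-!
# The second inverse relation and the twist by an automorphism

`down ∘ up` is also a multiple of the projection; a semilinear `s` along an automorphism `τ` with
`τ π = π ζ`, trivial on residues, satisfies `up ∘ s = χ • (s ∘ up)`.
-/

set_option autoImplicit false

noncomputable section

open WithZero Matrix

namespace Fermat.Agent.LT.Rigidity.Tame

variable {E Z κ : Type*} [Field E] [AddCommGroup Z] [Module ℂ Z] [Fintype κ]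
  {R : GL (Fin 2) E →* Module.End ℂ Z} {v : Valuation E ℤᵐ⁰} {π ζ : Eˣ} {r : κ → E}

/-- The Weyl element. -/
def swap : GL (Fin 2) E where
  val := !![0, 1; 1, 0]
  inv := !![0, 1; 1, 0]
  val_inv := by ext i j; fin_cases i <;> fin_cases j <;> simp
  inv_val := by ext i j; fin_cases i <;> fin_cases j <;> simp

theorem swap_val : (swap (E := E)).val = !![0, 1; 1, 0] := rfl

theorem swap_mul_swap : (swap : GL (Fin 2) E) * swap = 1 := Units.ext swap.mul_inv

theorem isInt_swap : IsInt v (swap (E := E)) := by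
  constructor <;> intro i j <;> fin_cases i <;> fin_cases j <;> simp [swap, Units.inv_mk]

theorem low_mul_swap (x : E) : low x * swap = swap * unip x := by
  ext i j; fin_cases i <;> fin_cases j <;>
    simp [swap_val, Matrix.mul_apply, Fin.sum_univ_two]

theorem unip_mul_swap (x : E) : unip x * swap = swap * low x := by
  ext i j; fin_cases i <;> fin_cases j <;>
    simp [swap_val, Matrix.mul_apply, Fin.sum_univ_two]

variable (hr : ResList v r) (hζ : v (ζ : E) = 1) (hζ3 : v ((ζ : E) ^ 3 - 1) < 1)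
  (hπ : IsUnif v π) {χ : ℂ} (hχ : χ ^ 3 = 1)
include hr hζ hζ3 hπ hχ

/-- `down` and `up` are inverse on the range of the projection, in the other order. -/
theorem down_up (hχ2 : χ ^ 2 ≠ 1) {z : Z} (hz : Fixed R v z) :
    down R π ζ r χ (up R π ζ r χ z) = (Fintype.card κ : ℂ) • proj R ζ r χ z := by
  set y := proj R ζ r χ z with hy
  have hyE : IsEig R v ζ χ y := isEig_proj hr hζ hζ3 hχ hz
  show R (dia π⁻¹) (lsum R r (proj R ζ r χ (up R π ζ r χ z))) = _
  rw [proj_self hr hχ (isEig_up hr hζ hζ3 hπ hχ hz)]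
  show R (dia π⁻¹) (lsum R r (nsum R r (R (dia π) y))) = _
  have hy' : Fixed R v (R (dia π) y) := fun g hg => by
    obtain ⟨x, k, hx, hk, e⟩ := hg.conj_dia hπ
    rw [← R_mul, e, R_mul, hyE.fixed k hk, R_mul, hyE.ninv x hx]
  set y' := R (dia π) y with hy'def
  have hw : IsEig R v ζ (χ ^ 2) (R swap y') := by
    refine ⟨hy'.int isInt_swap, fun x hx => ?_, ?_⟩
    · have e : low x * dia π = dia π * low ((π : E) * x) := by
        ext i j; fin_cases i <;> fin_cases j <;>
          simp [dia_val, Matrix.mul_apply, Fin.sum_univ_two, mul_comm]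
      rw [← R_mul, unip_mul_swap, R_mul, hy'def, ← R_mul (low x), e, R_mul,
        hyE.fixed _ (near_low (hπ.mul_lt hx))]
    · let S : GL (Fin 2) E := Units.map (Matrix.scalar (Fin 2)).toMonoidHom ζ
      have hS : Near v S := near_scalar ζ.ne_zero fun a b => by
        by_cases h : a = b
        · subst h; simp [S]
        · simp [S, h]
      have e : dia ζ * swap * dia ζ = swap * S := by
        ext i j; fin_cases i <;> fin_cases j <;>
          simp [S, swap_val, dia_val, Matrix.mul_apply, Fin.sum_univ_two]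
      have h1 : R (dia ζ) y' = χ • y' := by
        rw [hy'def, ← R_mul, ← Whittaker.dia_mul, mul_comm, Whittaker.dia_mul, R_mul, hyE.eig,
          map_smul]
      have h2 : R (dia ζ) (R swap (R (dia ζ) y')) = R swap y' := by
        rw [← R_mul, ← R_mul, e, R_mul, hy' _ hS]
      rw [h1, map_smul, map_smul] at h2
      calc R (dia ζ) (R swap y') = (χ ^ 2 * χ) • R (dia ζ) (R swap y') := by
            rw [← pow_succ, hχ, one_smul]
        _ = χ ^ 2 • R swap y' := by rw [mul_smul, h2]
  have hχ4 : (χ ^ 2) ^ 2 ≠ 1 := fun h => hχ2 (by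
    have h4 : χ = 1 := by linear_combination h - χ * hχ
    rw [h4, one_pow])
  have hL : ∀ {z' : Z}, lsum R r z' = R swap (nsum R r (R swap z')) := fun {z'} => by
    rw [lsum_apply, nsum_apply, map_sum]
    refine Finset.sum_congr rfl fun i _ => ?_
    rw [← R_mul, ← R_mul, ← low_mul_swap, mul_assoc,
      swap_mul_swap, mul_one]
  have hN : ∀ {z' : Z}, nsum R r z' = R swap (lsum R r (R swap z')) := fun {z'} => by
    rw [lsum_apply, nsum_apply, map_sum]
    refine Finset.sum_congr rfl fun i _ => ?_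
    rw [← R_mul, ← R_mul, ← unip_mul_swap, mul_assoc,
      swap_mul_swap, mul_one]
  have hww : ∀ z' : Z, R swap (R swap z') = z' := fun z' => by
    rw [← R_mul, swap_mul_swap, map_one,
      Module.End.one_apply]
  rw [hL, hN (z' := y'), hww, nsum_lsum hr hζ hχ4 hw, map_smul, hww, map_smul, hy'def, ← R_mul,
    ← Whittaker.dia_mul, inv_mul_cancel, Whittaker.dia_one, map_one, Module.End.one_apply]

/-- Injectivity of `up` on the range of the projection. -/
theorem proj_eq_zero_of_up (hχ2 : χ ^ 2 ≠ 1) {z : Z} (hz : Fixed R v z)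
    (h : up R π ζ r χ z = 0) : proj R ζ r χ z = 0 := by
  have := down_up hr hζ hζ3 hπ hχ hχ2 hz
  rw [h, map_zero, eq_comm, smul_eq_zero] at this
  exact this.resolve_left (card_ne_zero hr)

variable {s : Module.End ℂ Z} {τ : E ≃+* E}
  (hτres : ∀ x, v x ≤ 1 → v (τ x - x) < 1) (hτπ : τ π = (π : E) * ζ)
  (hs : ∀ g z, R g (s z) = s (R (Matrix.GeneralLinearGroup.map τ.toRingHom g) z))
include hτres hτπ hs

omit hπ hχ hτπ hζ hζ3 in
theorem nsum_semilinear {z : Z} (hz : Fixed R v z) : nsum R r (s z) = s (nsum R r z) := by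
  rw [nsum_apply, nsum_apply, map_sum]
  refine Finset.sum_congr rfl fun i _ => ?_
  rw [hs, Whittaker.map_unip]
  exact congrArg _ (hz.unip_congr (hτres _ (hr.integral i)))

omit [Fintype κ] hr hπ hχ hτπ hζ3 in
theorem dia_semilinear {z : Z} (hz : Fixed R v z) :
    R (dia ζ) (s z) = s (R (dia ζ) z) := by
  rw [hs, Whittaker.map_dia]
  refine congrArg s ?_
  have e : Units.map τ.toRingHom.toMonoidHom ζ =
      ζ * (ζ⁻¹ * Units.map τ.toRingHom.toMonoidHom ζ) := by rw [mul_inv_cancel_left]
  rw [e, Whittaker.dia_mul, R_mul, hz _ (near_dia ?_)]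
  show v (((ζ⁻¹ : Eˣ) : E) * τ ζ - 1) < 1
  rw [Units.val_inv_eq_inv_val, show (ζ : E)⁻¹ * τ ζ - 1 = (ζ : E)⁻¹ * (τ ζ - ζ) by
    rw [mul_sub, inv_mul_cancel₀ ζ.ne_zero], map_mul, map_inv₀, hζ, inv_one, one_mul]
  exact hτres _ hζ.le

omit hπ hχ hτπ hζ3 in
/-- The twisted projection commutes with the semilinear map. -/
theorem proj_semilinear {z : Z} (hz : Fixed R v z) :
    proj R ζ r χ (s z) = s (proj R ζ r χ z) := by
  have ha : avg R r (s z) = s (avg R r z) := by
    show (Fintype.card κ : ℂ)⁻¹ • nsum R r (s z) = s ((Fintype.card κ : ℂ)⁻¹ • nsum R r z)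
    rw [nsum_semilinear hr hτres hs hz, map_smul]
  have hf := fixed_avg hr hz
  show charProj R ζ χ (avg R r (s z)) = s (charProj R ζ χ (avg R r z))
  rw [ha]
  simp only [charProj, map_mul, LinearMap.smul_apply, LinearMap.add_apply, Module.End.one_apply,
    Module.End.mul_apply, map_add, map_smul, dia_semilinear hζ hτres hs hf,
    dia_semilinear hζ hτres hs (hf.int (isInt_dia hζ))]

/-- **Twist.** -/
theorem up_semilinear {z : Z} (hz : Fixed R v z) :
    up R π ζ r χ (s z) = χ • s (up R π ζ r χ z) := by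
  have hyE := isEig_proj (r := r) hr hζ hζ3 hχ hz
  show nsum R r (R (dia π) (proj R ζ r χ (s z))) =
    χ • s (nsum R r (R (dia π) (proj R ζ r χ z)))
  set y := proj R ζ r χ z
  have hf : Fixed R v (R (dia π) y) := fun g hg => by
    obtain ⟨x, k, hx, hk, e⟩ := hg.conj_dia hπ
    rw [← R_mul, e, R_mul, hyE.fixed k hk, R_mul, hyE.ninv x hx]
  have e : Units.map τ.toRingHom.toMonoidHom π = π * ζ := Units.ext hτπ
  rw [proj_semilinear hr hζ hτres hs hz, hs, Whittaker.map_dia, e, Whittaker.dia_mul,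
    R_mul, hyE.eig, map_smul, map_smul, map_smul, nsum_semilinear hr hτres hs hf]

end Fermat.Agent.LT.Rigidity.Tame

end
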