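import Fermat.Agent.LT.Rigidity.TameTrace.LocalTwist
import Fermat.Agent.LT.HeckeAlg.Support
import Fermat.Agent.LT.PlaceMatching.Places
import Fermat.Agent.LT.Setup.IdealLevel
import Fermat.Agent.LT.Galois

/-!
# Right translations supported at one place

Functions on `GL₂(A_f)` carry right translations by `GL₂(F_w)`. An element of their algebra
preserving invariance under the level is the operator of a Hecke function supported at `w`.
-/

set_option autoImplicit false

noncomputable section

open IsDedekindDomain NumberField WithZero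
open scoped NumberField

namespace Fermat.Agent.LT.Rigidity.Tame

open Places

variable {F : Type*} [Field F] [NumberField F]

variable (F) in
/-- Functions on `GL₂(A_f)`. -/
abbrev Fn : Type _ := GLFin F → ℂ

/-- Right translation. -/
def rt : GLFin F →* Module.End ℂ (Fn F) where
  toFun g :=
    { toFun := fun f x => f (x * g)
      map_add' := fun _ _ => rfl
      map_smul' := fun _ _ => rfl }
  map_one' := LinearMap.ext fun f => funext fun x => congrArg f (mul_one x)
  map_mul' g h := LinearMap.ext fun f => funext fun x => congrArg f (mul_assoc x g h).symm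

/-- Right translation by elements at `w`. -/
def rtLoc (w : FinPlace F) : GL (Fin 2) (w.adicCompletion F) →* Module.End ℂ (Fn F) :=
  rt.comp (localGL w)

/-- The value of a local right translate. -/
theorem rtLoc_apply (w : FinPlace F) (g : GL (Fin 2) (w.adicCompletion F)) (f : Fn F)
    (x : GLFin F) : rtLoc w g f x = f (x * localGL w g) := rfl

/-- Invariance under the level. -/
def InvU (U : Level F) (f : Fn F) : Prop := ∀ u ∈ U.toSubgroup, ∀ x, f (x * u) = f x

/-- A function on cosets as a function on the group. -/
def lift {U : Level F} (f : GLFin F ⧸ U.toSubgroup → ℂ) : Fn F := fun x => f (QuotientGroup.mk x)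

/-- Lifted functions are invariant under the level. -/
theorem invU_lift {U : Level F} (f : GLFin F ⧸ U.toSubgroup → ℂ) : InvU U (lift f) :=
  fun u hu x => congrArg f (QuotientGroup.eq.mpr (by simpa using U.toSubgroup.inv_mem hu))

/-- The valuation at `w`. -/
abbrev val (w : FinPlace F) : Valuation (w.adicCompletion F) ℤᵐ⁰ := Valued.v

/-- The residue lifts at `w` represent the residue classes. -/
theorem resList_resLift (w : FinPlace F) : ResList (val w) (resLift w) where
  integral := valued_resLift w
  exists_near _ := exists_resLift_near w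
  inj _ _ := resLift_injective w

/-- The chosen local uniformiser is a uniformiser. -/
theorem isUnif_piLocal (w : FinPlace F) : IsUnif (val w) (piLocal w) where
  lt := by
    show Valued.v (piLocal w : w.adicCompletion F) < 1
    rw [valued_piLocal, ← exp_zero, exp_lt_exp]; omega
  le_of_lt x hx := by
    show Valued.v x ≤ Valued.v (piLocal w : w.adicCompletion F)
    rw [valued_piLocal]
    rcases eq_or_ne (Valued.v x) 0 with h0 | h0
    · rw [h0]; exact zero_le
    · have hx' : Valued.v x < 1 := hx
      rw [← exp_log h0, ← exp_zero, exp_lt_exp] at hx'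
      rw [← exp_log h0, exp_le_exp]
      omega

/-- The level is scalars times the first congruence subgroup at `w`. -/
structure IsFirstLevel (U : Level F) (w : FinPlace F) : Prop where
  congr : ∀ k, Near (val w) k → localGL w k ∈ U.toSubgroup
  component : ∀ u ∈ U.toSubgroup, Near (val w) (glPlace w u)

/-- At a first level, invariant functions are fixed at `w`. -/
theorem IsFirstLevel.fixed {U : Level F} {w : FinPlace F} (h : IsFirstLevel U w) {f : Fn F}
    (hf : InvU U f) : Fixed (rtLoc w) (val w) f :=
  fun g hg => funext fun x => hf _ (h.congr g hg) x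

/-- The algebra of translations at `w`. -/
def LocAlg (w : FinPlace F) : Subalgebra ℂ (Module.End ℂ (Fn F)) :=
  Algebra.adjoin ℂ (Set.range (rtLoc w))

/-- Translations at `w` lie in the local algebra. -/
theorem rtLoc_mem (w : FinPlace F) (g : GL (Fin 2) (w.adicCompletion F)) :
    rtLoc w g ∈ LocAlg w :=
  Algebra.subset_adjoin ⟨g, rfl⟩

/-- The local algebra consists of finite combinations of translations at `w`. -/
theorem exists_combination {w : FinPlace F} {A : Module.End ℂ (Fn F)} (hA : A ∈ LocAlg w) :
    ∃ c : GL (Fin 2) (w.adicCompletion F) →₀ ℂ,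
      ∀ f x, A f x = ∑ g ∈ c.support, c g * f (x * localGL w g) := by
  have h : A ∈ Submodule.span ℂ (Set.range (rtLoc w)) := by
    have h1 : A ∈ Subalgebra.toSubmodule (Algebra.adjoin ℂ (Set.range (rtLoc w))) := hA
    rw [Algebra.adjoin_eq_span, ← MonoidHom.coe_mrange, Submonoid.closure_eq,
      MonoidHom.coe_mrange] at h1
    exact h1
  obtain ⟨c, hc⟩ := Finsupp.mem_span_range_iff_exists_finsupp.mp h
  refine ⟨c, fun f x => ?_⟩
  rw [← hc, Finsupp.sum, LinearMap.sum_apply, Finset.sum_apply]
  rfl

theorem apply_left {w : FinPlace F} {A : Module.End ℂ (Fn F)} (hA : A ∈ LocAlg w)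
    (f : Fn F) (h x : GLFin F) : A (fun y => f (h * y)) x = A f (h * x) := by
  obtain ⟨c, hc⟩ := exists_combination hA
  rw [hc, hc]
  exact Finset.sum_congr rfl fun g _ => by rw [mul_assoc]

theorem invU_apply {U : Level F} {w : FinPlace F} (hU : IsFirstLevel U w)
    {A : Module.End ℂ (Fn F)} (hA : A ∈ LocAlg w) {f : Fn F} (hf : InvU U f)
    (hAf : Fixed (rtLoc w) (val w) (A f)) : InvU U (A f) := by
  intro u hu x
  set u' : GLFin F := (localGL w (glPlace w u))⁻¹ * u with hu'
  have hu'U : u' ∈ U.toSubgroup :=
    U.toSubgroup.mul_mem (U.toSubgroup.inv_mem (hU.congr _ (hU.component u hu))) hu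
  have hcomm : ∀ g, u' * localGL w g = localGL w g * u' := fun g => (localGL_mul_comm g (by
    rw [hu', map_mul, map_inv, glPlace_localGL_same, inv_mul_cancel]
    exact Commute.one_right g)).symm
  obtain ⟨c, hc⟩ := exists_combination hA
  have h1 : ∀ y, A f (y * u') = A f y := fun y => by
    rw [hc, hc]
    refine Finset.sum_congr rfl fun g _ => ?_
    rw [mul_assoc, hcomm, ← mul_assoc, hf u' hu'U]
  rw [show x * u = x * localGL w (glPlace w u) * u' by rw [hu']; group, h1]
  exact congrFun (hAf _ (hU.component u hu)) x

section Hecke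

variable {U : Level F} {w : FinPlace F} (hU : IsFirstLevel U w) {A : Module.End ℂ (Fn F)}
  (hA : A ∈ LocAlg w) (hfix : ∀ f, InvU U f → Fixed (rtLoc w) (val w) (A f))

open Classical in
/-- The indicator of a coset. -/
def delta (U : Level F) (b : GLFin F ⧸ U.toSubgroup) : Fn F :=
  lift fun c => if c = b then 1 else 0

theorem delta_left (U : Level F) (h y : GLFin F) :
    (fun z => delta U (QuotientGroup.mk y) (h * z)) = delta U (QuotientGroup.mk (h⁻¹ * y)) := by
  classical
  funext z
  refine if_congr ?_ rfl rfl
  rw [QuotientGroup.eq, QuotientGroup.eq, mul_inv_rev, mul_assoc]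

/-- The Hecke function of an operator at `w`. -/
def heckeOf : HeckeFn U where
  toFun y := A (delta U (QuotientGroup.mk y)) 1
  left_inv' u y hu := by
    rw [← inv_inv u, ← delta_left, apply_left hA, mul_one]
    conv_lhs => rw [← one_mul u⁻¹]
    exact invU_apply hU hA (invU_lift _) (hfix _ (invU_lift _)) _ (U.toSubgroup.inv_mem hu) 1
  right_inv' y u hu := by
    rw [show (QuotientGroup.mk (y * u) : GLFin F ⧸ U.toSubgroup) = QuotientGroup.mk y from
      QuotientGroup.eq.mpr (by simpa using U.toSubgroup.inv_mem hu)]
  finite_support := by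
    classical
    obtain ⟨c, hc⟩ := exists_combination hA
    refine ((c.support.image fun g => (QuotientGroup.mk (localGL w g) :
      GLFin F ⧸ U.toSubgroup)).finite_toSet).subset ?_
    rintro _ ⟨y, hy, rfl⟩
    rw [Set.mem_ofPred_eq, hc] at hy
    obtain ⟨g, hg, hne⟩ := Finset.exists_ne_zero_of_sum_ne_zero hy
    have : (QuotientGroup.mk (1 * localGL w g) : GLFin F ⧸ U.toSubgroup) = QuotientGroup.mk y :=
      by_contra fun h => hne (mul_eq_zero_of_right _ (if_neg h))
    rw [one_mul] at this
    exact Finset.mem_coe.mpr (Finset.mem_image.mpr ⟨g, hg, this⟩)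

/-- The Hecke function of an operator at `w` is supported at `w`. -/
theorem heckeOf_supportedIn : (heckeOf hU hA hfix).SupportedIn {w} := by
  classical
  intro y hy
  obtain ⟨c, hc⟩ := exists_combination hA
  change A (delta U (QuotientGroup.mk y)) 1 ≠ 0 at hy
  rw [hc] at hy
  obtain ⟨g, -, hne⟩ := Finset.exists_ne_zero_of_sum_ne_zero hy
  refine ⟨localGL w g, ?_, fun u hu => glPlace_localGL_ne hu g⟩
  have : (QuotientGroup.mk (1 * localGL w g) : GLFin F ⧸ U.toSubgroup) = QuotientGroup.mk y :=
    by_contra fun h => hne (mul_eq_zero_of_right _ (if_neg h))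
  rw [one_mul] at this
  exact QuotientGroup.eq.mp this

/-- The Hecke function of an operator acts through the operator. -/
theorem heckeOf_op (φ : Y U → ℂ) (P : InfinitePlace F → H3) (x : GLFin F) :
    (heckeOf hU hA hfix).op φ (P, QuotientGroup.mk x) = A (lift fun b => φ (P, b)) x := by
  classical
  obtain ⟨c, hc⟩ := exists_combination hA
  have hk : ∀ b, (heckeOf hU hA hfix).kernel (QuotientGroup.mk x) b =
      ∑ g ∈ c.support, c g *
        if (QuotientGroup.mk (x * localGL w g) : GLFin F ⧸ U.toSubgroup) = b then 1 else 0 := by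
    intro b
    induction b using QuotientGroup.induction_on with | H y => ?_
    rw [HeckeFn.kernel_mk]
    show A (delta U (QuotientGroup.mk (x⁻¹ * y))) 1 = _
    rw [← delta_left, apply_left hA, mul_one, hc]
    rfl
  show ∑ᶠ b, (heckeOf hU hA hfix).kernel (QuotientGroup.mk x) b * φ (P, b) = _
  set s : Finset (GLFin F ⧸ U.toSubgroup) :=
    c.support.image fun g => QuotientGroup.mk (x * localGL w g)
  rw [finsum_eq_sum_of_support_subset (s := s) _ fun b hb => ?_, hc]
  · simp only [hk, Finset.sum_mul]
    rw [Finset.sum_comm]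
    refine Finset.sum_congr rfl fun g hg => ?_
    simp only [mul_ite, mul_one, mul_zero, ite_mul, zero_mul]
    rw [Finset.sum_ite_eq s, if_pos (Finset.mem_image.mpr ⟨g, hg, rfl⟩)]
    rfl
  · by_contra hbs
    refine hb ?_
    show (heckeOf hU hA hfix).kernel _ b * _ = 0
    rw [hk, Finset.sum_eq_zero, zero_mul]
    intro g hg
    rw [if_neg fun e => hbs (Finset.mem_coe.mpr (Finset.mem_image.mpr ⟨g, hg, e⟩)), mul_zero]

/-- `heckeOf` on lifted functions. -/
theorem lift_heckeOf_op (φ : Y U → ℂ) (P : InfinitePlace F → H3) :
    lift (fun b => (heckeOf hU hA hfix).op φ (P, b)) = A (lift fun b => φ (P, b)) :=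
  funext fun x => heckeOf_op hU hA hfix φ P x

end Hecke

/-- Two functions on `Y` agree if their lifts do. -/
theorem eq_of_lift {U : Level F} {φ ψ : Y U → ℂ}
    (h : ∀ P, lift (fun b => φ (P, b)) = lift fun b => ψ (P, b)) : φ = ψ := by
  funext ⟨P, b⟩
  induction b using QuotientGroup.induction_on with | H x => exact congrFun (h P) x

/-! ### Galois -/

variable {σ : F ≃+* F} {w : FinPlace F}

open PlaceMatching

theorem glFinMap_localGL (hw : comapPlace (σ : F →+* F) w = w)
    (g : GL (Fin 2) (w.adicCompletion F)) :
    glFinMap (σ : F →+* F) (localGL w g) =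
      localGL w (Matrix.GeneralLinearGroup.map (placeIso σ hw).toRingHom g) := by
  refine gl_ext fun u => Units.ext (Matrix.ext fun i j => ?_)
  show toPlace u (finMap (σ : F →+* F) ((localGL w g).val i j)) = _
  rcases eq_or_ne u w with rfl | hu
  · rw [toPlace_finMap hw, glPlace_localGL_same]
    show placeIso σ hw (toPlace u (localMat u g.val i j)) = _
    rw [toPlace_localMat_same]
    rfl
  · rw [toPlace_finMap (w' := comapPlace (σ : F →+* F) u) rfl, glPlace_localGL_ne hu]
    show placeIso σ _ (toPlace _ (localMat w g.val i j)) = _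
    have hne : comapPlace (σ : F →+* F) u ≠ w := fun e =>
      hu ((placeEquiv σ).injective (e.trans hw.symm))
    rw [toPlace_localMat_ne hne, Units.val_one]
    by_cases hij : i = j <;> simp [hij, Matrix.one_apply]

variable (σ) in
/-- Composition with the automorphism. -/
def galFn : Module.End ℂ (Fn F) where
  toFun f x := f (glFinMap (σ : F →+* F) x)
  map_add' _ _ := rfl
  map_smul' _ _ := rfl

/-- Local translations intertwine with the Galois action. -/
theorem rtLoc_galFn (hw : comapPlace (σ : F →+* F) w = w)
    (g : GL (Fin 2) (w.adicCompletion F)) (f : Fn F) :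
    rtLoc w g (galFn σ f) =
      galFn σ (rtLoc w (Matrix.GeneralLinearGroup.map (placeIso σ hw).toRingHom g) f) := by
  funext x
  show f (glFinMap (σ : F →+* F) (x * localGL w g)) =
    f (glFinMap (σ : F →+* F) x * localGL w _)
  rw [map_mul, glFinMap_localGL hw]

/-- The Galois action on lifted functions. -/
theorem lift_galY {U : Level F}
    (hU : ∀ g ∈ U.toSubgroup, glFinMap (σ : F →+* F) g ∈ U.toSubgroup) (φ : Y U → ℂ)
    (P : InfinitePlace F → H3) :
    lift (fun b => φ (galY σ U hU (P, b))) = galFn σ (lift fun b => φ (galInf σ P, b)) := rfl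

/-- A place fixed by `σ` with trivial action on residues. -/
structure IsTamePlace (σ : F ≃+* F) (U : Level F) (w : FinPlace F) : Prop where
  level : IsFirstLevel U w
  fixed : comapPlace (σ : F →+* F) w = w
  residue : ∀ x : w.adicCompletion F, Valued.v x ≤ 1 →
    Valued.v (placeIso σ fixed x - x) < 1
  pow : σ ^ 3 = 1

namespace IsTamePlace

variable {U : Level F} (h : IsTamePlace σ U w)
include h

theorem placeIso_ne_zero {x : w.adicCompletion F} (hx : x ≠ 0) : placeIso σ h.fixed x ≠ 0 :=
  (map_ne_zero _).mpr hx

/-- The ratio of a conjugate uniformiser to the uniformiser. -/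
def zeta : (w.adicCompletion F)ˣ :=
  Units.mk0 (placeIso σ h.fixed (piLocal w : w.adicCompletion F) / piLocal w)
    (div_ne_zero (h.placeIso_ne_zero (piLocal w).ne_zero) (piLocal w).ne_zero)

/-- The Galois action multiplies the uniformiser by `ζ`. -/
theorem placeIso_piLocal : placeIso σ h.fixed (piLocal w : w.adicCompletion F) =
    (piLocal w : w.adicCompletion F) * h.zeta :=
  (mul_div_cancel₀ _ (piLocal w).ne_zero).symm

/-- `ζ` is a unit. -/
theorem valued_zeta : val w (h.zeta : w.adicCompletion F) = 1 := by
  show Valued.v (placeIso σ h.fixed (piLocal w : w.adicCompletion F) / piLocal w) = 1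
  rw [map_div₀, valued_placeIso, div_self]
  exact (Valuation.ne_zero_iff _).mpr (piLocal w).ne_zero

/-- `ζ` is a cube root of unity modulo the place. -/
theorem zeta_three : val w ((h.zeta : w.adicCompletion F) ^ 3 - 1) < 1 :=
  valued_pow_three_sub_one_lt (fun x => valued_placeIso h.fixed x) h.residue
    (piLocal w).ne_zero h.placeIso_piLocal
    (by rw [← RingAut.mul_apply, ← RingAut.mul_apply,
      show placeIso σ h.fixed * placeIso σ h.fixed * placeIso σ h.fixed =
        placeIso σ h.fixed ^ 3 by rw [pow_three, mul_assoc],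
      placeIso_pow_three h.pow h.fixed, RingAut.one_apply])
    h.valued_zeta

end IsTamePlace

/-- The condition on residues at a tame place of a cubic extension. -/
theorem residue_of_isTame {K : Type*} [Field K] [NumberField K] {ι : K →+* F}
    (hc : Geometric.IsCubic ι σ) (ht : PlaceMatching.IsTame σ w) (h3 : (3 : 𝓞 F) ∉ w.asIdeal)
    (x : w.adicCompletion F) (hx : Valued.v x ≤ 1) :
    Valued.v (placeIso σ ht.fixed x - x) < 1 := by
  have h := (ht.datum hc h3).residue_fixed ⟨x, mem_intRing.mpr hx⟩
  rw [piInt_dvd_iff] at h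
  exact h

/-! ### The level of an ideal -/

theorem valued_lt_one_of_mem_idealAdele {I : Ideal (𝓞 F)} (hw : I ≤ w.asIdeal) {x : FinAdele F}
    (hx : x ∈ idealAdele F I) : Valued.v (toPlace w x) < 1 := by
  induction hx using AddSubgroup.closure_induction with
  | mem x hx =>
    obtain ⟨o, ho, a, ha, rfl⟩ := hx
    rw [map_mul, toPlace_finIncl, map_mul]
    exact lt_of_le_of_lt (mul_le_of_le_one_right' (placeVal_le_one w ha))
      ((valued_algebraMap_lt_one w).mpr (hw ho))
  | zero => simp
  | add x y _ _ hx hy => rw [map_add]; exact Valuation.map_add_lt _ hx hy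
  | neg x _ hx => rw [map_neg, Valuation.map_neg]; exact hx

/-- The level of an ideal divisible exactly once by `w`. -/
theorem isFirstLevel_ofIdeal {I : Ideal (𝓞 F)} {hI : ∃ N : ℕ, 0 < N ∧ (N : 𝓞 F) ∈ I}
    (hw : I ≤ w.asIdeal) (hexact : ∃ o ∈ I, w.valuation F (o : F) = exp (-1 : ℤ)) :
    IsFirstLevel (Level.ofIdeal F I hI) w where
  component u hu := by
    obtain ⟨a, k, hk, rfl⟩ := hu
    refine ⟨(toPlace w (a : FinAdele F))⁻¹, fun i j => ?_⟩
    have hval : (glPlace w (scalarFin F a * k)).val i j =
        toPlace w (a : FinAdele F) * toPlace w (k.val i j) := by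
      rw [map_mul, Units.val_mul, Matrix.mul_apply, Fin.sum_univ_two, glPlace_scalarFin_apply,
        glPlace_scalarFin_apply, glPlace_apply, glPlace_apply]
      fin_cases i <;> simp
    rw [hval, inv_mul_cancel_left₀ (toPlace_units_ne_zero w a)]
    have := valued_lt_one_of_mem_idealAdele hw (hk.2 i j)
    rw [map_sub] at this
    by_cases hij : i = j <;> simpa [hij, Matrix.one_apply] using this
  congr g hg := by
    obtain ⟨c, hc⟩ := hg
    have hc0 : c ≠ 0 := fun h0 => by
      have := hc 0 0
      rw [h0, zero_mul, zero_sub, Valuation.map_neg, Matrix.one_apply_eq, map_one] at this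
      exact lt_irrefl _ this
    set S : GL (Fin 2) (w.adicCompletion F) :=
      Units.map (Matrix.scalar (Fin 2)).toMonoidHom (Units.mk0 c hc0) with hS
    set k := S * g with hk
    have hke : ∀ i j, k.val i j = c * g.val i j := fun i j => by
      rw [hk, Units.val_mul, Matrix.mul_apply, Fin.sum_univ_two, hS]
      fin_cases i <;> simp
    clear_value k
    have hsub : ∀ i j, Valued.v (k.val i j -
        (1 : Matrix (Fin 2) (Fin 2) (w.adicCompletion F)) i j) < 1 := fun i j => by
      rw [hke]; exact hc i j
    have hle : ∀ i j, Valued.v (k.val i j) ≤ 1 := fun i j => by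
      refine le_one_of_near (v := val w) ?_ (hsub i j)
      by_cases hij : i = j
      · subst hij; simp
      · simp [Matrix.one_apply_ne hij]
    have hdet : Valued.v k.val.det = 1 := by
      rw [← map_one (Valued.v (R := w.adicCompletion F))]
      refine Valuation.map_eq_of_sub_lt _ ?_
      rw [map_one]
      rw [Matrix.det_fin_two,
        show k.val 0 0 * k.val 1 1 - k.val 0 1 * k.val 1 0 - 1 =
          (k.val 0 0 - 1) * k.val 1 1 + (k.val 1 1 - 1) - k.val 0 1 * k.val 1 0 by ring]
      have h00 := hsub 0 0
      have h11 := hsub 1 1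
      have h01 := hsub 0 1
      rw [Matrix.one_apply_eq] at h00 h11
      rw [Matrix.one_apply_ne zero_ne_one, sub_zero] at h01
      exact sub_lt (Valuation.map_add_lt _ (mul_lt_left h00 (hle 1 1)) h11)
        (mul_lt_left h01 (hle 1 0))
    refine ⟨localUnit w (Units.mk0 c hc0)⁻¹, localGL w k, ⟨?_, fun i j => ?_⟩, gl_ext fun u => ?_⟩
    · rw [isPrincipal_iff one_pos]
      intro u i j
      rcases eq_or_ne u w with rfl | hu
      · have hki : k ∈ intGroup u := ⟨hle, hdet⟩
        rw [map_inv, glPlace_localGL_same, Nat.cast_one, map_one]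
        constructor
        · exact (hsub i j).le
        · refine (Valued.v.map_sub _ _).trans (max_le (((intGroup u).inv_mem hki).1 i j) ?_)
          by_cases hij : i = j <;> simp [hij, Matrix.one_apply]
      · rw [map_inv, glPlace_localGL_ne hu]
        simp [zero_le]
    · obtain ⟨o, ho, hov⟩ := hexact
      have hov' : Valued.v (algebraMap F (w.adicCompletion F) (o : F)) = exp (-1 : ℤ) :=
        (HeightOneSpectrum.valuedAdicCompletion_eq_valuation' w _).trans hov
      have hd : Valued.v ((k.val i j - (1 : Matrix (Fin 2) (Fin 2) (w.adicCompletion F)) i j) /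
          algebraMap F (w.adicCompletion F) (o : F)) ≤ 1 := by
        rw [map_div₀, hov']
        refine (div_le_one₀ (zero_lt_iff.mpr exp_ne_zero)).mpr ?_
        have := (isUnif_piLocal w).le_of_lt _ (hsub i j)
        exact this.trans (valued_piLocal w).le
      refine AddSubgroup.subset_closure ⟨o, ho, single w _, single_mem_integralAdele hd,
        ext_toPlace fun u => ?_⟩
      rw [map_sub, map_mul, toPlace_finIncl, ← glPlace_apply]
      have h1 : toPlace u ((1 : Matrix (Fin 2) (Fin 2) (FinAdele F)) i j) =
          (1 : Matrix (Fin 2) (Fin 2) (u.adicCompletion F)) i j := by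
        by_cases hij : i = j <;> simp [hij, Matrix.one_apply]
      rw [h1]
      rcases eq_or_ne u w with rfl | hu
      · rw [glPlace_localGL_same, toPlace_single_same, mul_div_cancel₀]
        intro h0
        rw [h0, map_zero] at hov'
        exact exp_ne_zero hov'.symm
      · rw [glPlace_localGL_ne hu, toPlace_single_ne hu, mul_zero, Units.val_one, sub_self]
    · refine Units.ext (Matrix.ext fun i j => ?_)
      rw [map_mul, Units.val_mul, Matrix.mul_apply, Fin.sum_univ_two, glPlace_scalarFin_apply,
        glPlace_scalarFin_apply]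
      rcases eq_or_ne u w with rfl | hu
      · rw [glPlace_localGL_same, glPlace_localGL_same, toPlace_localUnit_same]
        fin_cases i <;> simp [hke, inv_mul_cancel_left₀ hc0]
      · rw [glPlace_localGL_ne hu, glPlace_localGL_ne hu, toPlace_localUnit_ne hu]
        fin_cases i <;> simp

end Fermat.Agent.LT.Rigidity.Tame

end
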