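import Fermat.Agent.LT.Rigidity.TameTrace.Invariance
import Mathlib.RingTheory.DedekindDomain.Different
import Mathlib.Algebra.Algebra.Hom.Rat

/-!
# The conductor of the additive character at a tame place

The character is invariant under automorphisms and nontrivial at every place. At a tame place of
a cubic extension the automorphism acts on the residues of level `m` by `ζ ^ (-m)`, so its
conductor exponent plus one is divisible by three.
-/

set_option autoImplicit false

noncomputable section

open IsDedekindDomain NumberField WithZero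
open scoped NumberField nonZeroDivisors

namespace Fermat.Agent.LT.Rigidity.Tame

open Places PlaceMatching Whittaker

variable {F : Type*} [Field F] [NumberField F]

/-- The character is invariant under automorphisms. -/
theorem psiFin_finMap (σ : F ≃+* F) (u : FinAdele F) :
    psiFin F (finMap (σ : F →+* F) u) = psiFin F u := by
  obtain ⟨b, hb⟩ := exists_finIncl_sub u
  have h := finExtend_mem_integralAdele (σ : F →+* F) hb
  rw [← finMap_eq_finExtend, map_sub, finMap_finIncl] at h
  rw [psiFin_eq h, psiFin_eq hb, psiGlobal, psiGlobal]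
  have e : Algebra.trace ℚ F (σ b) = Algebra.trace ℚ F b :=
    (Algebra.trace_eq_of_algEquiv (RingEquiv.toRatAlgEquiv σ) b)
  rw [show ((σ : F →+* F) b) = σ b from rfl, e]

theorem psiFin_single_placeIso {σ : F ≃+* F} {w : FinPlace F}
    (hw : comapPlace (σ : F →+* F) w = w) (x : w.adicCompletion F) :
    psiFin F (single w (placeIso σ hw x)) = psiFin F (single w x) := by
  rw [← psiFin_finMap σ (single w x)]
  congr 1
  refine ext_toPlace fun v => ?_
  rcases eq_or_ne v w with rfl | hv
  · rw [toPlace_single_same, toPlace_finMap hw, toPlace_single_same]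
  · rw [toPlace_single_ne hv, toPlace_finMap (w' := comapPlace (σ : F →+* F) v) rfl]
    have hne : comapPlace (σ : F →+* F) v ≠ w := fun e =>
      hv ((placeEquiv σ).injective (e.trans hw.symm))
    rw [toPlace_single_ne hne, map_zero]

/-- The character is nontrivial at every place. -/
theorem exists_psiFin_ne_one (w : FinPlace F) :
    ∃ y : w.adicCompletion F, psiFin F (single w y) ≠ 1 := by
  by_contra hall
  push Not at hall
  obtain ⟨a, ha, hint⟩ := (FractionalIdeal.dual ℤ ℚ (1 : FractionalIdeal (𝓞 F)⁰ F)).2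
  have ha0 : (a : F) ≠ 0 := by
    simpa using nonZeroDivisors.ne_zero ha
  obtain ⟨e, he⟩ : ∃ e : ℤ, w.valuation F (a : F) = exp e :=
    ⟨_, (exp_log ((Valuation.ne_zero_iff _).mpr ha0)).symm⟩
  set N : ℕ := (-e).toNat + 1
  obtain ⟨b, hb⟩ := exists_finIncl_sub (single w (((piLocal w : w.adicCompletion F) ^ N)⁻¹))
  have hN : Valued.v (((piLocal w : w.adicCompletion F) ^ N)⁻¹) = exp (N : ℤ) := by
    rw [map_inv₀, map_pow, valued_piLocal, ← exp_nsmul, ← exp_neg, nsmul_eq_mul, mul_neg_one,
      neg_neg]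
  have hw0 := placeVal_le_one w hb
  rw [placeVal, map_sub, toPlace_single_same] at hw0
  have hbw : w.valuation F b = exp (N : ℤ) := by
    rw [← placeVal_finIncl, placeVal, ← hN]
    refine Valuation.map_eq_of_sub_lt _ ?_
    rw [Valuation.map_sub_swap]
    refine hw0.trans_lt ?_
    rw [hN, ← exp_zero, exp_lt_exp]
    omega
  have hmem : b ∈ FractionalIdeal.dual ℤ ℚ (1 : FractionalIdeal (𝓞 F)⁰ F) := by
    rw [FractionalIdeal.mem_dual (show (1 : FractionalIdeal (𝓞 F)⁰ F) ≠ 0 from one_ne_zero)]
    intro x hx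
    obtain ⟨o, rfl⟩ := (FractionalIdeal.mem_one_iff _).mp hx
    have hbo : single w (toPlace w (finIncl F (b * (o : F)))) - finIncl F (b * (o : F)) ∈
        integralAdele F := mem_integralAdele_iff.2 fun v => by
      rw [placeVal, map_sub]
      rcases eq_or_ne v w with rfl | hv
      · simp
      · rw [toPlace_single_ne hv, zero_sub, Valuation.map_neg, map_mul (finIncl F), map_mul,
          map_mul]
        refine mul_le_one' ?_ ?_
        · have := placeVal_le_one v hb
          rwa [placeVal, map_sub, toPlace_single_ne hv, zero_sub, Valuation.map_neg] at this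
        · show placeVal v (finIncl F (o : F)) ≤ 1
          rw [placeVal_finIncl]
          exact v.valuation_le_one o
    have h1 := hall (toPlace w (finIncl F (b * (o : F))))
    rw [psiFin_eq hbo, psiGlobal_eq_one_iff] at h1
    obtain ⟨n, hn⟩ := h1
    exact ⟨n, by rw [Algebra.traceForm_apply]; simpa using hn.symm⟩
  obtain ⟨c, hc⟩ := hint b hmem
  have h2 : w.valuation F (algebraMap (𝓞 F) F c) ≤ 1 := w.valuation_le_one c
  rw [hc, Algebra.smul_def, map_mul, hbw, ← RingOfIntegers.coe_eq_algebraMap, he, ← exp_add,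
    ← exp_zero, exp_le_exp] at h2
  omega

/-- The subgroup of units congruent to one. -/
def nearOne (w : FinPlace F) : Subgroup (w.adicCompletion F)ˣ where
  carrier := {e | Valued.v ((e : w.adicCompletion F) - 1) < 1}
  one_mem' := by simp
  mul_mem' := fun {a b} (ha : Valued.v ((a : w.adicCompletion F) - 1) < 1)
      (hb : Valued.v ((b : w.adicCompletion F) - 1) < 1) => by
    show Valued.v (((a * b : (w.adicCompletion F)ˣ) : w.adicCompletion F) - 1) < 1
    rw [Units.val_mul, show (a : w.adicCompletion F) * b - 1 =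
      ((a : w.adicCompletion F) - 1) * b + ((b : w.adicCompletion F) - 1) by ring]
    refine Valuation.map_add_lt _ (mul_lt_left (v := val w) ha ?_) hb
    exact le_one_of_near (v := val w) (by simp) hb
  inv_mem' := fun {a} (ha : Valued.v ((a : w.adicCompletion F) - 1) < 1) => by
    have ha1 : Valued.v (a : w.adicCompletion F) = 1 := by
      rw [← map_one (Valued.v (R := w.adicCompletion F))]
      exact Valuation.map_eq_of_sub_lt _ (by rwa [map_one])
    show Valued.v (((a⁻¹ : (w.adicCompletion F)ˣ) : w.adicCompletion F) - 1) < 1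
    rw [show ((a⁻¹ : (w.adicCompletion F)ˣ) : w.adicCompletion F) - 1 =
      -(((a⁻¹ : (w.adicCompletion F)ˣ) : w.adicCompletion F) * ((a : w.adicCompletion F) - 1)) by
        rw [mul_sub, Units.inv_mul, mul_one, neg_sub], Valuation.map_neg, map_mul,
      Units.val_inv_eq_inv_val, map_inv₀, ha1, inv_one, one_mul]
    exact ha

theorem mem_nearOne {w : FinPlace F} {e : (w.adicCompletion F)ˣ} :
    e ∈ nearOne w ↔ Valued.v ((e : w.adicCompletion F) - 1) < 1 := Iff.rfl

/-- **Conductor at a tame place.** -/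
theorem hasShellThree_of_isTame {K : Type*} [Field K] [NumberField K] {ι : K →+* F}
    {σ : F ≃+* F} {w : FinPlace F} (hc : Geometric.IsCubic ι σ) (ht : PlaceMatching.IsTame σ w)
    (h3 : (3 : 𝓞 F) ∉ w.asIdeal) : HasShellThree w := by
  classical
  have D := ht.datum hc h3
  set τ := placeIso σ ht.fixed with hτ
  set π : w.adicCompletion F := (piLocal w : w.adicCompletion F) with hπdef
  have hπ : π ≠ 0 := (piLocal w).ne_zero
  have hvπ : Valued.v π = exp (-1 : ℤ) := valued_piLocal w
  let ζ : (w.adicCompletion F)ˣ :=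
    Units.mk0 (τ π / π) (div_ne_zero ((map_ne_zero _).mpr hπ) hπ)
  have hζπ : τ π = π * (ζ : w.adicCompletion F) := (mul_div_cancel₀ _ hπ).symm
  have hζ1 : Valued.v (ζ : w.adicCompletion F) = 1 := by
    show Valued.v (τ π / π) = 1
    rw [map_div₀, hτ, valued_placeIso, div_self]
    exact (Valuation.ne_zero_iff _).mpr hπ
  have hres : ∀ x : w.adicCompletion F, Valued.v x ≤ 1 → Valued.v (τ x - x) < 1 :=
    residue_of_isTame hc ht h3
  -- `ζ` is a nontrivial cube root of unity modulo `w`
  have hne : ζ ∉ nearOne w := fun hn => by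
    have hz : Valued.v (((ζ : w.adicCompletion F) - 1) / π) ≤ 1 := (isUnif_piLocal w).div hn
    have h31 := D.orbit 1 ⟨⟨_, mem_intRing.mpr hz⟩, by
      rw [zpow_one]
      show τ π = π * (1 + π * (((ζ : w.adicCompletion F) - 1) / π))
      rw [mul_div_cancel₀ _ hπ, add_sub_cancel]
      exact hζπ⟩
    omega
  have hcube : ζ ^ (3 : ℤ) ∈ nearOne w := by
    have h3' : τ (τ (τ π)) = π := by
      rw [← RingAut.mul_apply, ← RingAut.mul_apply,
        show τ * τ * τ = τ ^ 3 by rw [pow_three, mul_assoc], hτ,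
        placeIso_pow_three hc.pow ht.fixed, RingAut.one_apply]
    rw [mem_nearOne, zpow_ofNat, Units.val_pow_eq_pow_val]
    exact valued_pow_three_sub_one_lt (fun x => valued_placeIso ht.fixed x) hres hπ hζπ h3' hζ1
  -- the least level with a nontrivial value
  obtain ⟨y₁, hy₁⟩ := exists_psiFin_ne_one w
  have hex : ∃ n : ℕ, ∃ y : w.adicCompletion F,
      Valued.v y ≤ exp (n : ℤ) ∧ psiFin F (single w y) ≠ 1 := by
    refine ⟨(log (Valued.v y₁)).toNat, y₁, ?_, hy₁⟩
    rcases eq_or_ne (Valued.v y₁) 0 with h | h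
    · rw [h]; exact zero_le
    · conv_lhs => rw [← exp_log h]
      exact exp_le_exp.mpr (Int.self_le_toNat _)
  set m := Nat.find hex with hm
  obtain ⟨y₀, hy₀, hy₀ne⟩ := Nat.find_spec hex
  have hm0 : 1 ≤ m := by
    by_contra h0
    have e0 : (m : ℤ) = 0 := by omega
    rw [← hm, e0, exp_zero] at hy₀
    exact hy₀ne (psiFin_of_mem (single_mem_integralAdele hy₀))
  have htriv : ∀ y : w.adicCompletion F,
      Valued.v y ≤ exp ((m : ℤ) - 1) → psiFin F (single w y) = 1 := fun y hy => by
    by_contra hne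
    exact Nat.find_min hex (show m - 1 < Nat.find hex by omega) ⟨y, by
      rwa [show (((m - 1 : ℕ)) : ℤ) = (m : ℤ) - 1 by omega], hne⟩
  refine ⟨(m : ℤ) - 1, ?_, htriv, y₀, by rwa [sub_add_cancel], hy₀ne⟩
  rw [sub_add_cancel]
  by_contra h3m
  refine hy₀ne ?_
  set z := ζ ^ (-(m : ℤ)) with hz
  have hzne : z ∉ nearOne w := fun hmem => hne (by
    have hm' : ζ ^ (m : ℤ) ∈ nearOne w := by
      rw [← inv_mem_iff, ← zpow_neg]
      exact hmem
    rcases (by omega : (m : ℤ) % 3 = 1 ∨ (m : ℤ) % 3 = 2) with hr | hr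
    · have e : ζ = ζ ^ (m : ℤ) * ((ζ ^ (3 : ℤ)) ^ ((m : ℤ) / 3))⁻¹ := by
        rw [← zpow_mul, ← zpow_neg, ← zpow_add,
          show (m : ℤ) + -(3 * ((m : ℤ) / 3)) = 1 by omega, zpow_one]
      rw [e]
      exact mul_mem hm' (inv_mem (zpow_mem hcube _))
    · have e : ζ = (ζ ^ (3 : ℤ)) ^ ((m : ℤ) / 3 + 1) * (ζ ^ (m : ℤ))⁻¹ := by
        rw [← zpow_mul, ← zpow_neg, ← zpow_add,
          show 3 * ((m : ℤ) / 3 + 1) + -(m : ℤ) = 1 by omega, zpow_one]
      rw [e]
      exact mul_mem (zpow_mem hcube _) (inv_mem hm'))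
  have hz1 : Valued.v (z : w.adicCompletion F) = 1 := by
    rw [hz, Units.val_zpow_eq_zpow_val, map_zpow₀, hζ1, one_zpow]
  have hz2 : Valued.v ((z : w.adicCompletion F) - 1) = 1 := by
    refine le_antisymm ((Valuation.map_sub _ _ _).trans (max_le hz1.le (by simp))) ?_
    exact not_lt.mp hzne
  have hzs : (z : w.adicCompletion F) - 1 ≠ 0 := fun e => by rw [e, map_zero] at hz2; simp at hz2
  have hπm : π ^ (-(m : ℤ)) ≠ 0 := zpow_ne_zero _ hπ
  have hvm : Valued.v (π ^ (-(m : ℤ))) = exp (m : ℤ) := by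
    rw [map_zpow₀, hvπ, ← exp_zsmul, zsmul_eq_mul, Int.cast_id]
    congr 1
    ring
  set u := y₀ / π ^ (-(m : ℤ)) with hu
  have hu1 : Valued.v u ≤ 1 := by
    rw [hu, map_div₀, hvm]
    exact (div_le_one₀ (zero_lt_iff.mpr exp_ne_zero)).mpr hy₀
  set c := u / ((z : w.adicCompletion F) - 1) with hcdef
  have hc1 : Valued.v c ≤ 1 := by rw [hcdef, map_div₀, hz2, div_one]; exact hu1
  set y' := π ^ (-(m : ℤ)) * c
  have hτy : τ y' - y' =
      y₀ + π ^ (-(m : ℤ)) * (z : w.adicCompletion F) * (τ c - c) := by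
    have e1 : τ y' = π ^ (-(m : ℤ)) * (z : w.adicCompletion F) * τ c := by
      rw [map_mul, map_zpow₀, hζπ, mul_zpow, hz, Units.val_zpow_eq_zpow_val]
    have e2 : y₀ = π ^ (-(m : ℤ)) * (((z : w.adicCompletion F) - 1) * c) := by
      rw [hcdef, mul_div_cancel₀ _ hzs, hu, mul_div_cancel₀ _ hπm]
    rw [e1, e2]
    ring
  have herr : psiFin F (single w (π ^ (-(m : ℤ)) * (z : w.adicCompletion F) * (τ c - c))) = 1 := by
    refine htriv _ ?_
    rw [map_mul, map_mul, hvm, hz1, mul_one]
    calc exp (m : ℤ) * Valued.v (τ c - c) ≤ exp (m : ℤ) * exp (-1 : ℤ) :=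
          mul_le_mul_right (((isUnif_piLocal w).le_of_lt _ (hres c hc1)).trans
            (valued_piLocal w).le) _
      _ = exp ((m : ℤ) - 1) := by rw [← exp_add]; rfl
  have key : psiFin F (single w (τ y')) =
      psiFin F (single w y') * (psiFin F (single w y₀) *
        psiFin F (single w (π ^ (-(m : ℤ)) * (z : w.adicCompletion F) * (τ c - c)))) := by
    rw [← psiFin_add, ← psiFin_add, ← map_add, ← map_add, ← hτy, add_sub_cancel]
  rw [herr, mul_one, hτ, psiFin_single_placeIso ht.fixed] at key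
  exact (mul_eq_left₀ (psiFin_ne_zero _)).mp key.symm

end Fermat.Agent.LT.Rigidity.Tame

end
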